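import Fermat.Agent.LT.LiftTheta.Weil.Unfold

/-!
# Coefficients of slashed theta functions

The coefficients of the slash of the theta functions by an element of `SL₂(ℤ)` form a function of
the indices of the lift invariant under `GL₂ K`.
-/

set_option autoImplicit false

noncomputable section

open Matrix NumberField
open scoped Real MatrixGroups ModularForm Classical
open NumberField (InfinitePlace)

namespace Fermat.Agent.LT.LiftTheta.Weil

open LatticeTheta LiftHecke
open Reduction (IntGL)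
open Lift (pullMat AdelicJ AdelicG)

theorem pullMat_add (g : GL (Fin 2) ℂ) (X Y : Matrix (Fin 2) (Fin 2) ℂ) :
    pullMat g (X + Y) = pullMat g X + pullMat g Y := by
  simp only [Lift.pullMat, Matrix.mul_add, Matrix.add_mul, smul_add]

theorem hermMat_add (u v : Fin 4 → ℝ) : hermMat (u + v) = hermMat u + hermMat v := by
  ext i j
  fin_cases i <;> fin_cases j <;> apply Complex.ext <;> simp [hermMat] <;> ring

theorem qreal_injective (M : ℕ) [NeZero M] : Function.Injective (qreal M) := fun _ _ h =>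
  qcoord_injective M (funext fun i => Rat.cast_injective (congrFun h i))

variable {K : Type*} [Field K] [NumberField K] {Fr : HermFrame K} (B : EisBasis Fr)
  {U : Level K} {C : NormScale Fr U} {M : ℕ} [NeZero M]

theorem exists_int_pullMat (hC : IsUnitScale C) (B : EisBasis Fr) {uu : GL (Fin 2) K}
    (huu : IntGL (glIncl K uu)) (n : Fin 4 → ℤ) :
    ∃ n' : Fin 4 → ℤ, pullMat (Matrix.GeneralLinearGroup.map Fr.e uu) (hermMat (intVec n)) =
      hermMat (intVec n') := by
  have h := ThetaWeight.normVec_hermEquiv (C := C) uu 1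
    ((Fr.hermEquiv uu).symm (B.coordHerm fun i => (n i : ℚ)))
  rw [mul_one, map_one, hC _ huu, Equiv.apply_symm_apply, B.normVec_coordHerm] at h
  obtain ⟨q, hq⟩ := B.exists_coordHerm ((Fr.hermEquiv uu).symm (B.coordHerm fun i => (n i : ℚ)))
  have hbox : InBox 1 ((B.coordHerm q).1.map (finIncl K)) := by
    rw [hq]
    have e : ((Fr.hermEquiv uu).symm (B.coordHerm fun i => (n i : ℚ))).1.map (finIncl K) =
        LiftHecke.hermAct (finMap Fr.σ).toRingHom (glIncl K uu⁻¹).val
          ((B.coordHerm fun i => (n i : ℚ)).1.map (finIncl K)) := by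
      show (LiftHecke.hermAct Fr.σ (uu⁻¹).val _).map (finIncl K) = _
      rw [LiftHecke.hermAct, LiftHecke.hermAct, Matrix.map_mul, Matrix.map_mul]
      rfl
    rw [e, map_inv]
    exact ((B.inBox_map_coordHerm 1 _).2 fun i => ⟨n i, by simp⟩).hermAct huu.inv Fr.σ
  choose n' hn' using (B.inBox_map_coordHerm 1 q).1 hbox
  refine ⟨n', ?_⟩
  rw [show intVec n = fun i => (((n i : ℚ)) : ℝ) from funext fun i => by simp [intVec], h, ← hq,
    B.normVec_coordHerm]
  congr 1
  funext i
  have := hn' i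
  rw [Nat.cast_one, one_mul] at this
  simp [← this, intVec]

theorem exists_dual_pullMat (hC : IsUnitScale C) (B : EisBasis Fr) {uu : GL (Fin 2) K}
    (huu : IntGL (glIncl K uu)) (ν : Fin 4 → ℤ) :
    ∃ ν', pullMat (Matrix.GeneralLinearGroup.map Fr.e uu) (hermMat (qreal M ν)) =
      hermMat (qreal M ν') := by
  refine exists_qreal_of_isometry M (AddMonoidHom.mk' _ (pullMat_add _))
    (AddMonoidHom.mk' _ (pullMat_add (Matrix.GeneralLinearGroup.map Fr.e uu⁻¹)))
    (fun X => ?_) (fun X hX => Lift.isHermitian_pullMat _ hX) (fun X => Lift.nForm_pullMat _ X)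
    (fun n => exists_int_pullMat hC B (by rw [map_inv]; exact huu.inv) n) ν
  simp only [AddMonoidHom.mk'_apply]
  rw [← Lift.pullMat_mul, ← map_mul, inv_mul_cancel, map_one, Lift.pullMat_one]

/-- The isometry of the discriminant group of an element of `GL₂(𝓞)`. -/
def isomOf (M : ℕ) [NeZero M] (hC : IsUnitScale C) (B : EisBasis Fr) (uu : GL (Fin 2) K)
    (huu : IntGL (glIncl K uu)) : (scaledShape M).Isom :=
  have huu' : IntGL (glIncl K uu⁻¹) := by rw [map_inv]; exact huu.inv
  let f := fun ν => (exists_dual_pullMat (M := M) hC B huu ν).choose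
  let g := fun ν => (exists_dual_pullMat (M := M) hC B huu' ν).choose
  have hf : ∀ ν, pullMat (Matrix.GeneralLinearGroup.map Fr.e uu) (hermMat (qreal M ν)) =
      hermMat (qreal M (f ν)) := fun ν => (exists_dual_pullMat (M := M) hC B huu ν).choose_spec
  have hg : ∀ ν, pullMat (Matrix.GeneralLinearGroup.map Fr.e uu⁻¹) (hermMat (qreal M ν)) =
      hermMat (qreal M (g ν)) := fun ν => (exists_dual_pullMat (M := M) hC B huu' ν).choose_spec
  have hinj : Function.Injective fun ν => hermMat (qreal M ν) :=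
    hermMat_injective.comp (qreal_injective M)
  have hadd : ∀ ν μ, f (ν + μ) = f ν + f μ := fun ν μ => hinj (by
    show hermMat _ = hermMat _
    rw [← hf, qreal_add, qreal_add, hermMat_add, hermMat_add, pullMat_add, hf, hf])
  { e :=
      { toFun := f
        invFun := g
        left_inv := fun ν => hinj (by
          show hermMat _ = hermMat _
          rw [← hg, ← hf, ← Lift.pullMat_mul, ← map_mul, mul_inv_cancel, map_one, Lift.pullMat_one])
        right_inv := fun ν => hinj (by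
          show hermMat _ = hermMat _
          rw [← hf, ← hg, ← Lift.pullMat_mul, ← map_mul, inv_mul_cancel, map_one, Lift.pullMat_one])
        map_add' := hadd }
    pair_eq := fun ν μ => by
      show (scaledShape M).pair (f ν) (f μ) = _
      rw [pair_eq_nForm, pair_eq_nForm, ← hadd, ← hf, ← hf, ← hf, Lift.nForm_pullMat,
        Lift.nForm_pullMat, Lift.nForm_pullMat] }

theorem isomOf_apply (hC : IsUnitScale C) (B : EisBasis Fr) {uu : GL (Fin 2) K}
    (huu : IntGL (glIncl K uu)) (ν : Fin 4 → ℤ) :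
    pullMat (Matrix.GeneralLinearGroup.map Fr.e uu) (hermMat (qreal M ν)) =
      hermMat (qreal M ((isomOf M hC B uu huu).e ν)) :=
  (exists_dual_pullMat (M := M) hC B huu ν).choose_spec

variable [IsPrincipalIdealRing (𝓞 K)]

theorem exists_transition {b : GLFin K ⧸ U.toSubgroup} {γ γ' : GL (Fin 2) K} {k k' : GLFin K}
    (hd : IsDecomp b γ k) (hd' : IsDecomp b γ' k') :
    ∃ uu : GL (Fin 2) K, IntGL (glIncl K uu) ∧
      ∀ v, pullMat (Matrix.GeneralLinearGroup.map Fr.e γ') v =
        pullMat (Matrix.GeneralLinearGroup.map Fr.e uu)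
          (pullMat (Matrix.GeneralLinearGroup.map Fr.e γ) v) := by
  have hu : (glIncl K γ * k)⁻¹ * (glIncl K γ' * k') ∈ U.toSubgroup :=
    QuotientGroup.eq.1 (hd.2.trans hd'.2.symm)
  obtain ⟨α, k₃, hk₃, he⟩ := level_decomp hu
  refine ⟨(scalarGlobal K α)⁻¹ * (γ⁻¹ * γ'), ?_, fun v => ?_⟩
  · have e' : glIncl K ((scalarGlobal K α)⁻¹ * (γ⁻¹ * γ')) = k * k₃ * k'⁻¹ := by
      have hcomm : k * glIncl K (scalarGlobal K α) = glIncl K (scalarGlobal K α) * k := by
        rw [glIncl_scalarGlobal]; exact (scalarFin_comm _ k).symm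
      rw [inv_mul_eq_iff_eq_mul] at he
      have e1 : glIncl K γ' = glIncl K γ * (glIncl K (scalarGlobal K α) * k) * k₃ * k'⁻¹ := by
        rw [← hcomm, eq_mul_inv_iff_mul_eq, he]
        group
      rw [map_mul, map_mul, e1, map_inv, map_inv]
      group
    rw [e']
    exact (hd.1.mul hk₃).mul hd'.1.inv
  · rw [← Lift.pullMat_mul, ← map_mul]
    symm
    refine Lift.pullMat_of_smul (a := Fr.e ((α⁻¹ : Kˣ) : K)) ((map_ne_zero _).2 (Units.ne_zero _))
      ?_ v
    ext i j
    rw [← map_inv (scalarGlobal K)]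
    have e3 : γ * (scalarGlobal K α⁻¹ * (γ⁻¹ * γ')) = scalarGlobal K α⁻¹ * γ' := by
      rw [← mul_assoc, ← scalarGlobal_comm, mul_assoc, mul_inv_cancel_left]
    rw [e3]
    have hval : (scalarGlobal K α⁻¹ * γ').val i j = ((α⁻¹ : Kˣ) : K) * γ'.val i j := by
      rw [Units.val_mul, scalarGlobal_val, smul_mul_assoc, one_mul, Matrix.smul_apply, smul_eq_mul]
    show Fr.e ((scalarGlobal K α⁻¹ * γ').val i j) = _
    rw [hval, map_mul]
    rfl

variable {W : ThetaWeight Fr C} (hW : IsLevelWeight W M)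
  (R : ((scaledShape M).Cls → ℂ) → (scaledShape M).Cls → ℂ)

/-- The coefficient at a normalised vector, in the frame of a decomposition. -/
def coefAt {b : GLFin K ⧸ U.toSubgroup} {γ : GL (Fin 2) K} {k : GLFin K} (hd : IsDecomp b γ k)
    (v : Matrix (Fin 2) (Fin 2) ℂ) : ℂ :=
  if h : ∃ ν, pullMat (Matrix.GeneralLinearGroup.map Fr.e γ) v = hermMat (qreal M ν) then
    R (classFun B hW k hd.1) (h.choose : (scaledShape M).Cls)
  else 0

omit [IsPrincipalIdealRing (𝓞 K)] in
theorem coefAt_of_eq {b : GLFin K ⧸ U.toSubgroup} {γ : GL (Fin 2) K} {k : GLFin K}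
    (hd : IsDecomp b γ k) {v : Matrix (Fin 2) (Fin 2) ℂ} {ν : Fin 4 → ℤ}
    (h : pullMat (Matrix.GeneralLinearGroup.map Fr.e γ) v = hermMat (qreal M ν)) :
    coefAt B hW R hd v = R (classFun B hW k hd.1) (ν : (scaledShape M).Cls) := by
  have h' : ∃ ν, pullMat (Matrix.GeneralLinearGroup.map Fr.e γ) v = hermMat (qreal M ν) := ⟨ν, h⟩
  rw [coefAt, dif_pos h',
    qreal_injective M (hermMat_injective (h'.choose_spec.symm.trans h))]

omit [IsPrincipalIdealRing (𝓞 K)] in
theorem exists_of_coefAt_ne {b : GLFin K ⧸ U.toSubgroup} {γ : GL (Fin 2) K} {k : GLFin K}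
    (hd : IsDecomp b γ k) {v : Matrix (Fin 2) (Fin 2) ℂ} (h : coefAt B hW R hd v ≠ 0) :
    ∃ ν, pullMat (Matrix.GeneralLinearGroup.map Fr.e γ) v = hermMat (qreal M ν) := by
  by_contra h'
  exact h (by rw [coefAt, dif_neg h'])

theorem coefAt_eq_of_exists (hC : IsUnitScale C)
    (hR : ∀ (T : (scaledShape M).Isom) F, R (F ∘ T.cls) = R F ∘ T.cls)
    {b : GLFin K ⧸ U.toSubgroup} {γ γ' : GL (Fin 2) K}
    {k k' : GLFin K} (hd : IsDecomp b γ k) (hd' : IsDecomp b γ' k')
    {v : Matrix (Fin 2) (Fin 2) ℂ} {ν : Fin 4 → ℤ}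
    (h : pullMat (Matrix.GeneralLinearGroup.map Fr.e γ) v = hermMat (qreal M ν)) :
    coefAt B hW R hd v = coefAt B hW R hd' v := by
  obtain ⟨uu, huu, hv⟩ := exists_transition (Fr := Fr) hd hd'
  set T := isomOf M hC B uu huu
  have h' : pullMat (Matrix.GeneralLinearGroup.map Fr.e γ') v = hermMat (qreal M (T.e ν)) := by
    rw [hv, h, isomOf_apply hC B huu]
  rw [coefAt_of_eq B hW R hd h, coefAt_of_eq B hW R hd' h']
  have hF : classFun B hW k' hd'.1 ∘ T.cls = classFun B hW k hd.1 := by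
    funext c
    obtain ⟨μ, rfl⟩ := QuotientAddGroup.mk_surjective c
    obtain ⟨E, hE, hΦ⟩ := exists_transfer (Fr := Fr) hC hd
    obtain ⟨E', hE', hΦ'⟩ := exists_transfer (Fr := Fr) hC hd'
    have e : E' (B.coordHerm (qcoord M (T.e μ))) = E (B.coordHerm (qcoord M μ)) := by
      refine Lift.normVec_injective Fr (C.pos b.out) (Lift.pullMat_injective
        (Matrix.GeneralLinearGroup.map Fr.e γ') ?_)
      rw [hE', hv, hE, B.normVec_coordHerm, B.normVec_coordHerm]
      exact (isomOf_apply (M := M) hC B huu μ).symm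
    rw [Function.comp_apply, LatticeShape.Isom.cls_mk, classFun_mk, classFun_mk, ← hΦ' W, e, hΦ W]
  rw [← hF, hR, Function.comp_apply, LatticeShape.Isom.cls_mk]

theorem coefAt_eq (hC : IsUnitScale C)
    (hR : ∀ (T : (scaledShape M).Isom) F, R (F ∘ T.cls) = R F ∘ T.cls)
    {b : GLFin K ⧸ U.toSubgroup} {γ γ' : GL (Fin 2) K} {k k' : GLFin K}
    (hd : IsDecomp b γ k) (hd' : IsDecomp b γ' k') (v : Matrix (Fin 2) (Fin 2) ℂ) :
    coefAt B hW R hd v = coefAt B hW R hd' v := by
  by_cases h : coefAt B hW R hd v = 0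
  · by_cases h' : coefAt B hW R hd' v = 0
    · rw [h, h']
    · obtain ⟨ν, hν⟩ := exists_of_coefAt_ne B hW R hd' h'
      exact (coefAt_eq_of_exists B hW R hC hR hd' hd hν).symm
  · obtain ⟨ν, hν⟩ := exists_of_coefAt_ne B hW R hd h
    exact coefAt_eq_of_exists B hW R hC hR hd hd' hν

/-- The coefficient on the indices of the lift. -/
def slashCoef (j : AdelicJ C) : ℂ :=
  coefAt B hW R (exists_decomp j.coset).choose_spec.choose_spec j.vec

theorem slashCoef_transport (hC : IsUnitScale C)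
    (hR : ∀ (T : (scaledShape M).Isom) F, R (F ∘ T.cls) = R F ∘ T.cls)
    (uu : GL (Fin 2) K) (j : AdelicJ C) :
    slashCoef B hW R (Lift.transport uu j) = slashCoef B hW R j := by
  obtain ⟨γ, k, hd⟩ := exists_decomp j.coset
  have hd' : IsDecomp (Lift.transport uu j).coset (uu * γ) k := by
    refine ⟨hd.1, ?_⟩
    rw [show (Lift.transport uu j).coset = glIncl K uu • j.coset from rfl, ← hd.2,
      map_mul, mul_assoc]
    rfl
  rw [slashCoef, slashCoef, coefAt_eq B hW R hC hR _ hd', coefAt_eq B hW R hC hR _ hd]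
  have e : pullMat (Matrix.GeneralLinearGroup.map Fr.e (uu * γ)) (Lift.transport uu j).vec =
      pullMat (Matrix.GeneralLinearGroup.map Fr.e γ) j.vec := by
    rw [map_mul, Lift.pullMat_mul, Lift.pullMat_vec_transport]
  simp only [coefAt, e]

theorem norm_slashCoef_le {c : ℝ}
    (hb : ∀ (F : (scaledShape M).Cls → ℂ) (b : ℝ), (∀ x, ‖F x‖ ≤ b) → ∀ x, ‖R F x‖ ≤ c * b) :
    ∃ L : ℝ, 0 ≤ L ∧ ∀ j : AdelicJ C, ‖slashCoef B hW R j‖ ≤ L := by
  obtain ⟨b, hb'⟩ := hW.bounded
  refine ⟨max (c * b) 0, le_max_right _ _, fun j => ?_⟩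
  rw [slashCoef, coefAt]
  split_ifs with h
  · refine (hb _ b (fun x => ?_) _).trans (le_max_left _ _)
    obtain ⟨μ, rfl⟩ := QuotientAddGroup.mk_surjective x
    exact hb' _
  · rw [norm_zero]; exact le_max_right _ _

theorem inBox_of_slashCoef_ne (hC : IsUnitScale C) {j : AdelicJ C}
    (h : slashCoef B hW R j ≠ 0) :
    InBox (3 * M) (ThetaWeight.arg (Fr := Fr) j.coset.out j.mat) := by
  set hd := (exists_decomp (U := U) j.coset).choose_spec.choose_spec
  obtain ⟨ν, hν⟩ := exists_of_coefAt_ne B hW R hd h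
  obtain ⟨E, hE, hΦ⟩ := exists_transfer (Fr := Fr) hC hd
  have e : j.mat = E (B.coordHerm (qcoord M ν)) := by
    refine Lift.normVec_injective Fr (C.pos _) (Lift.pullMat_injective _ (hν.trans ?_))
    rw [hE, B.normVec_coordHerm]
    rfl
  have hb := hΦ (boxWeight C hC (3 * M)) (B.coordHerm (qcoord M ν))
  rw [← e] at hb
  have hbox : InBox (3 * M)
      (ThetaWeight.arg (Fr := Fr) (exists_decomp (U := U) j.coset).choose_spec.choose
        (B.coordHerm (qcoord M ν))) := by
    refine ((B.inBox_map_coordHerm _ _).2 fun i => ⟨(hermAdj *ᵥ ν) i, ?_⟩).hermAct hd.1.inv Fr.σ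
    have hM : (M : ℚ) ≠ 0 := Nat.cast_ne_zero.2 (NeZero.ne M)
    rw [qcoord]
    push_cast
    field_simp
  simp only [boxWeight, if_pos hbox] at hb
  by_contra hn
  rw [if_neg hn] at hb
  exact zero_ne_one hb

variable [Unique (InfinitePlace K)]

/-- **The slash of the theta function.** -/
theorem thetaFun_slash_eq (hC : IsUnitScale C) {δ : SL(2, ℤ)}
    (hθ : ∀ (D : Majorant (scaledShape M)), HasWeightOne (scaledShape M) (scaledConst M) D →
      ∀ F, D.theta F ∣[(1 : ℤ)] δ = D.theta (R F))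
    (y : Y U) (τ : UpperHalfPlane) :
    (Lift.thetaFun W y ∣[(1 : ℤ)] δ) τ = Lift.sqrtIm (τ : ℂ) *
      ∑' X : Fr.Herm, thetaKern C τ (y.1 default) y.2.out X *
        slashCoef B hW R (AdelicJ.of y.2 X : AdelicJ C) := by
  set hd := (exists_decomp (U := U) y.2).choose_spec.choose_spec
  rw [thetaFun_eq B hC hW y hd, hθ _ (hasWeightOne_scaledMajorant M _)]
  refine (tsum_transfer hC hd _ _ (fun X hX => ?_) (fun ν X hν => ?_) B _ _).symm
  · exact exists_of_coefAt_ne B hW R hd hX
  · exact coefAt_of_eq B hW R hd hν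

end Fermat.Agent.LT.LiftTheta.Weil
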