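import Fermat.Agent.LT.LatticeTheta.Coset
import Fermat.Agent.LT.Lift.AdelicAction
import Fermat.Agent.LT.Reduction.Classes
import Fermat.Agent.LT.Asai.Restrict.Field

/-!
# Coordinates of Hermitian matrices

Hermitian matrices over `ℚ(ζ₃)` in coordinates, the decomposition `GL₂(A_f) = GL₂(K) GL₂(Ô)`, and
the weight of the box of Hermitian matrices with bounded denominator.
-/

set_option autoImplicit false

noncomputable section

open Matrix NumberField
open scoped Real TensorProduct ComplexConjugate Classical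

namespace Fermat.Agent.LT.LiftTheta.Weil

open LatticeTheta LiftHecke
open Reduction (IntGL LatticeMem)

variable {K : Type*} [Field K]

/-- A cube root of unity spanning `K` and mapping to `(-1 + √3 i) / 2`. -/
structure EisBasis (Fr : HermFrame K) [CharZero K] where
  /-- The root. -/
  ω : K
  e_omega : Fr.e ω = ⟨-1 / 2, √3 / 2⟩
  span : ∀ x : K, ∃ a b : ℚ, x = (a : K) + (b : K) * ω

variable [NumberField K] {Fr : HermFrame K} (B : EisBasis Fr)

namespace EisBasis

theorem omega_sq : B.ω ^ 2 = -B.ω - 1 := by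
  refine Fr.e.injective ?_
  have h3 : √3 ^ 2 = (3 : ℝ) := Real.sq_sqrt (by norm_num)
  rw [map_pow, map_sub, map_neg, map_one, B.e_omega]
  apply Complex.ext <;> simp [pow_two] <;>
    first | ring1 | linear_combination (-1 / 4 : ℝ) * h3

theorem sigma_omega : Fr.σ B.ω = -B.ω - 1 := by
  refine Fr.e.injective ?_
  rw [Fr.conj_e, map_sub, map_neg, map_one, B.e_omega]
  apply Complex.ext <;> simp
  ring

theorem e_combination (a b : ℚ) :
    Fr.e ((a : K) + (b : K) * B.ω) = ⟨(a : ℝ) - (b : ℝ) / 2, √3 / 2 * (b : ℝ)⟩ := by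
  rw [map_add, map_mul, map_ratCast, map_ratCast, B.e_omega]
  apply Complex.ext <;> simp <;> ring

theorem isIntegral_omega : IsIntegral ℤ B.ω :=
  ⟨Polynomial.X ^ 2 + Polynomial.X + 1, by monicity!, by
    simp [Polynomial.eval₂_add, B.omega_sq]
    ring⟩

theorem exists_int_of_isIntegral_ratCast {r : ℚ} (h : IsIntegral ℤ (r : K)) :
    ∃ k : ℤ, (k : ℚ) = r := by
  have h' : IsIntegral ℤ r :=
    (isIntegral_algebraMap_iff (A := ℚ) (B := K) (algebraMap ℚ K).injective).1
      (by rwa [eq_ratCast])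
  exact IsIntegrallyClosed.isIntegral_iff.1 h'

theorem int_of_isIntegral {a b : ℚ} (h : IsIntegral ℤ ((a : K) + (b : K) * B.ω)) :
    (∃ k : ℤ, (k : ℚ) = a) ∧ ∃ k : ℤ, (k : ℚ) = b := by
  have hσ : ∀ x : K, IsIntegral ℤ x → IsIntegral ℤ (Fr.σ x) := fun x hx => hx.map Fr.σ.toIntAlgHom
  have hw := B.omega_sq
  have hs := B.sigma_omega
  obtain ⟨t, ht⟩ := exists_int_of_isIntegral_ratCast (K := K) (r := 2 * a - b) (by
    rw [show ((2 * a - b : ℚ) : K)
        = ((a : K) + (b : K) * B.ω) + Fr.σ ((a : K) + (b : K) * B.ω) by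
      simp only [map_add, map_mul, map_ratCast, hs]
      push_cast; ring]
    exact h.add (hσ _ h))
  obtain ⟨s, hs'⟩ := exists_int_of_isIntegral_ratCast (K := K) (r := -a - b) (by
    rw [show ((-a - b : ℚ) : K) = ((a : K) + (b : K) * B.ω) * B.ω
        + Fr.σ (((a : K) + (b : K) * B.ω) * B.ω) by
      simp only [map_add, map_mul, map_ratCast, hs]
      push_cast
      linear_combination (-2 * (b : K)) * hw]
    exact (h.mul B.isIntegral_omega).add (hσ _ (h.mul B.isIntegral_omega)))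
  obtain ⟨n, hn⟩ := exists_int_of_isIntegral_ratCast (K := K) (r := a ^ 2 - a * b + b ^ 2) (by
    rw [show ((a ^ 2 - a * b + b ^ 2 : ℚ) : K)
        = ((a : K) + (b : K) * B.ω) * Fr.σ ((a : K) + (b : K) * B.ω) by
      simp only [map_add, map_mul, map_ratCast, hs]
      push_cast
      linear_combination (b : K) ^ 2 * hw]
    exact h.mul (hσ _ h))
  have ha : (3 : ℚ) * a = ((t - s : ℤ) : ℚ) := by push_cast; linarith
  have hb : (3 : ℚ) * b = ((-t - 2 * s : ℤ) : ℚ) := by push_cast; linarith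
  have hq : (t - s) ^ 2 - (t - s) * (-t - 2 * s) + (-t - 2 * s) ^ 2 = 9 * n := by
    have : (((t - s) ^ 2 - (t - s) * (-t - 2 * s) + (-t - 2 * s) ^ 2 : ℤ) : ℚ)
        = ((9 * n : ℤ) : ℚ) := by
      push_cast
      rw [hn]
      have ha' : (3 : ℚ) * a = t - s := by push_cast at ha; exact ha
      have hb' : (3 : ℚ) * b = -t - 2 * s := by push_cast at hb; exact hb
      rw [← ha', ← hb']; ring
    exact_mod_cast this
  obtain ⟨u, hu⟩ : (3 : ℤ) ∣ t - s := Int.prime_three.dvd_of_dvd_pow (n := 2)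
    ⟨n - t * s, by linarith⟩
  obtain rfl : t = s + 3 * u := by omega
  push_cast at ha hb
  exact ⟨⟨u, by linarith⟩, ⟨-s - u, by push_cast; linarith⟩⟩

theorem isIntegral_combination (a b : ℤ) :
    IsIntegral ℤ (((a : ℚ) : K) + ((b : ℚ) : K) * B.ω) := by
  simp only [Rat.cast_intCast]
  exact (isIntegral_algebraMap (x := a)).add
    ((isIntegral_algebraMap (x := b)).mul B.isIntegral_omega)

/-- The Hermitian matrix with the given rational coordinates. -/
def coordHerm (q : Fin 4 → ℚ) : Fr.Herm :=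
  ⟨!![(q 0 : K), (q 2 : K) + (q 3 : K) * B.ω;
      (q 2 : K) + (q 3 : K) * (-B.ω - 1), (q 1 : K)], by
    have h := B.sigma_omega
    ext i j
    fin_cases i <;> fin_cases j <;> simp [h]⟩

theorem map_coordHerm (q : Fin 4 → ℚ) :
    (B.coordHerm q).1.map Fr.e = hermMat (fun i => (q i : ℝ)) := by
  ext i j
  fin_cases i <;> fin_cases j
  · simp [coordHerm, hermMat]
  · show Fr.e ((q 2 : K) + (q 3 : K) * B.ω) = _
    rw [B.e_combination]
    rfl
  · show Fr.e ((q 2 : K) + (q 3 : K) * (-B.ω - 1)) = _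
    rw [show (q 2 : K) + (q 3 : K) * (-B.ω - 1)
      = ((q 2 - q 3 : ℚ) : K) + ((-q 3 : ℚ) : K) * B.ω by push_cast; ring, B.e_combination]
    apply Complex.ext <;> simp [hermMat]
    ring
  · simp [coordHerm, hermMat]

theorem exists_coordHerm (X : Fr.Herm) : ∃ q, B.coordHerm q = X := by
  have h : ∀ i j, Fr.σ (X.1 j i) = X.1 i j := fun i j => congrFun (congrFun X.2 i) j
  have diag : ∀ x : K, Fr.σ x = x → ∃ a : ℚ, (a : K) = x := fun x hx => by
    obtain ⟨a, b, rfl⟩ := B.span x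
    refine ⟨a, ?_⟩
    have he := congrArg (fun z => (Fr.e z).im) hx
    simp only [Fr.conj_e, B.e_combination, Complex.conj_im] at he
    have h3 : (0 : ℝ) < √3 := by positivity
    have hb : b = 0 := by
      have : (b : ℝ) = 0 := by nlinarith
      exact_mod_cast this
    simp [hb]
  obtain ⟨q0, h0⟩ := diag _ (h 0 0)
  obtain ⟨q1, h1⟩ := diag _ (h 1 1)
  obtain ⟨q2, q3, h2⟩ := B.span (X.1 0 1)
  refine ⟨![q0, q1, q2, q3], Subtype.ext (Matrix.ext fun i j => ?_)⟩
  fin_cases i <;> fin_cases j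
  · simpa [coordHerm] using h0
  · simpa [coordHerm] using h2.symm
  · show _ = X.1 1 0
    rw [← h 1 0, h2]
    simp [coordHerm, B.sigma_omega]
  · simpa [coordHerm] using h1

theorem mem_integral_combination_iff (a b : ℚ) :
    finIncl K ((a : K) + (b : K) * B.ω) ∈ integralAdele K ↔
      (∃ k : ℤ, (k : ℚ) = a) ∧ ∃ k : ℤ, (k : ℚ) = b := by
  refine ⟨fun h => ?_, ?_⟩
  · obtain ⟨o, ho⟩ := Reduction.exists_integer_of_finIncl_mem h
    exact B.int_of_isIntegral (ho ▸ o.isIntegral_coe)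
  · rintro ⟨⟨k, rfl⟩, ⟨l, rfl⟩⟩
    exact Reduction.finIncl_mem_of_isIntegral
      (⟨_, B.isIntegral_combination k l⟩ : 𝓞 K)

theorem coordHerm_integral_iff (q : Fin 4 → ℚ) :
    (∀ i j, finIncl K ((B.coordHerm q).1 i j) ∈ integralAdele K) ↔
      ∀ i, ∃ k : ℤ, (k : ℚ) = q i := by
  have e00 : (B.coordHerm q).1 0 0 = (q 0 : K) + ((0 : ℚ) : K) * B.ω := by simp [coordHerm]
  have e11 : (B.coordHerm q).1 1 1 = (q 1 : K) + ((0 : ℚ) : K) * B.ω := by simp [coordHerm]
  have e01 : (B.coordHerm q).1 0 1 = (q 2 : K) + (q 3 : K) * B.ω := by simp [coordHerm]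
  have e10 : (B.coordHerm q).1 1 0
      = ((q 2 - q 3 : ℚ) : K) + ((-q 3 : ℚ) : K) * B.ω := by
    simp [coordHerm]; ring
  constructor
  · intro h i
    have h0 := (B.mem_integral_combination_iff _ _).1 (e00 ▸ h 0 0)
    have h1 := (B.mem_integral_combination_iff _ _).1 (e11 ▸ h 1 1)
    have h2 := (B.mem_integral_combination_iff _ _).1 (e01 ▸ h 0 1)
    fin_cases i
    exacts [h0.1, h1.1, h2.1, h2.2]
  · intro h i j
    obtain ⟨k2, hk2⟩ := h 2
    obtain ⟨k3, hk3⟩ := h 3
    fin_cases i <;> fin_cases j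
    · show finIncl K ((B.coordHerm q).1 0 0) ∈ _
      rw [e00, B.mem_integral_combination_iff]; exact ⟨h 0, 0, by simp⟩
    · show finIncl K ((B.coordHerm q).1 0 1) ∈ _
      rw [e01, B.mem_integral_combination_iff]; exact ⟨h 2, h 3⟩
    · show finIncl K ((B.coordHerm q).1 1 0) ∈ _
      rw [e10, B.mem_integral_combination_iff]
      exact ⟨⟨k2 - k3, by push_cast; rw [hk2, hk3]⟩, ⟨-k3, by push_cast; rw [hk3]⟩⟩
    · show finIncl K ((B.coordHerm q).1 1 1) ∈ _
      rw [e11, B.mem_integral_combination_iff]; exact ⟨h 1, 0, by simp⟩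

theorem normVec_coordHerm (q : Fin 4 → ℚ) :
    Fr.normVec 1 (B.coordHerm q) = hermMat (fun i => (q i : ℝ)) := by
  simp [HermFrame.normVec, B.map_coordHerm]

end EisBasis

/-- An Eisenstein basis of `ℚ(ζ₃)` for any frame. -/
def eisBasisEisField (Fr : HermFrame EisField) : EisBasis Fr :=
  Classical.choice (by
    set z := Fr.e Asai.eisZeta with hz
    have h : z ^ 2 + z + 1 = 0 := by
      rw [hz, ← map_pow, ← map_add, ← map_one Fr.e, ← map_add, Asai.eisZeta_sq, map_zero]
    have h3 : √3 ^ 2 = (3 : ℝ) := Real.sq_sqrt (by norm_num)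
    set w : ℂ := ⟨-1 / 2, √3 / 2⟩ with hw
    have hfac : (z - w) * (z - conj w) = 0 := by
      rw [← h, hw]
      apply Complex.ext <;> simp [pow_two] <;> ring_nf
      simp only [h3]
      ring
    have hspan : ∀ x : EisField, ∃ a b : ℚ, x = (a : EisField) + (b : EisField) * Asai.eisZeta := by
      intro x
      have hlin : LinearIndependent ℚ ![(1 : EisField), Asai.eisZeta] := by
        rw [LinearIndependent.pair_iff]
        intro s t hst
        rw [Algebra.smul_def, Algebra.smul_def, eq_ratCast, eq_ratCast, mul_one] at hst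
        have h1 := congrArg (fun y => (Fr.e y).im) hst
        have h2 := congrArg (fun y => (Fr.e y).re) hst
        simp only [map_add, map_mul, map_ratCast, map_zero, ← hz] at h1 h2
        have him : z.im ≠ 0 := by
          rcases mul_eq_zero.1 hfac with e | e <;> rw [sub_eq_zero.1 e] <;>
            simp [hw]
        simp [him] at h1
        subst h1
        simp at h2
        exact ⟨h2, rfl⟩
      have hspan := hlin.span_eq_top_of_card_eq_finrank (by simp [Asai.finrank_eisField])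
      have hx : x ∈ Submodule.span ℚ (Set.range ![(1 : EisField), Asai.eisZeta]) := by
        rw [hspan]; exact Submodule.mem_top
      rw [Matrix.range_cons, Matrix.range_cons, Matrix.range_empty, Set.union_empty,
        Set.singleton_union, Submodule.mem_span_pair] at hx
      obtain ⟨a, b, rfl⟩ := hx
      exact ⟨a, b, by simp [Algebra.smul_def]⟩
    rcases mul_eq_zero.1 hfac with e | e
    · exact ⟨⟨Asai.eisZeta, sub_eq_zero.1 e, hspan⟩⟩
    · refine ⟨⟨-Asai.eisZeta - 1, ?_, fun x => ?_⟩⟩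
      · rw [map_sub, map_neg, map_one, ← hz, sub_eq_zero.1 e, hw]
        apply Complex.ext <;> simp
        ring
      · obtain ⟨a, b, rfl⟩ := hspan x
        exact ⟨a - b, -b, by push_cast; ring⟩)

section Decomposition

theorem finMap_mem_integral (σ : K →+* K) {x : FinAdele K} (hx : x ∈ integralAdele K) :
    finMap σ x ∈ integralAdele K := by
  obtain ⟨y, rfl⟩ := hx
  induction y using TensorProduct.induction_on with
  | zero => rw [map_zero, map_zero]; exact zero_mem _
  | tmul a z =>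
    exact tmul_mem_integralAdele (⟨σ (a : K), a.isIntegral_coe.map σ.toIntAlgHom⟩ : 𝓞 K) z
  | add x y hx hy => rw [map_add, map_add]; exact add_mem hx hy

variable [IsPrincipalIdealRing (𝓞 K)]

/-- `GL₂(A_f) = GL₂(K) GL₂(Ô)`. -/
theorem exists_glIncl_mul_intGL (g : GLFin K) :
    ∃ (γ : GL (Fin 2) K) (k : GLFin K), IntGL k ∧ g = glIncl K γ * k := by
  obtain ⟨β, C, C', -, hL⟩ := Reduction.exists_upper_lattice g
  have gen : ∀ C : ClassGroup (𝓞 K), ∃ c : K, c ≠ 0 ∧
      ∀ z : K, (∃ j ∈ Reduction.repIdeal C, z = (j : K)) ↔ ∃ o : 𝓞 K, z = c * (o : K) := by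
    intro C
    obtain ⟨c, hc⟩ := (IsPrincipalIdealRing.principal
      ((Reduction.repIdeal C : Ideal (𝓞 K)))).principal
    have hne : ((Reduction.repIdeal C : Ideal (𝓞 K))) ≠ ⊥ :=
      nonZeroDivisors.ne_zero (ClassGroup.mk0_surjective C).choose.2
    refine ⟨(c : K), fun h => hne ?_, fun z => ⟨?_, ?_⟩⟩
    · rw [hc, RingOfIntegers.coe_eq_zero_iff.1 h]; simp
    · rintro ⟨j, hj, rfl⟩
      rw [hc] at hj
      obtain ⟨o, rfl⟩ := Submodule.mem_span_singleton.1 hj
      exact ⟨o, by rw [smul_eq_mul, mul_comm (c : K)]; simp⟩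
    · rintro ⟨o, rfl⟩
      exact ⟨o * c, hc ▸ Submodule.mem_span_singleton.2 ⟨o, rfl⟩, by simp [mul_comm]⟩
  obtain ⟨c, hc0, hc⟩ := gen C
  obtain ⟨c', hc0', hc'⟩ := gen C'
  set δ : GL (Fin 2) K := Matrix.GeneralLinearGroup.mkOfDetNeZero !![c, 0; 0, c']
    (by simp [Matrix.det_fin_two, hc0, hc0']) with hδ
  have hk : IntGL ((glIncl K δ * 1)⁻¹ * (glIncl K β * g)) := by
    refine Reduction.intGL_of_latticeMem_iff fun x => ?_
    rw [hL, Reduction.latticeMem_glIncl_mul, hc, hc']
    have hi : (δ⁻¹).val *ᵥ x = ![c⁻¹ * x 0, c'⁻¹ * x 1] := by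
      rw [Matrix.coe_units_inv, hδ]
      simp only [Matrix.GeneralLinearGroup.val_mkOfDetNeZero]
      rw [Matrix.inv_def, Matrix.adjugate_fin_two, Matrix.det_fin_two_of, Ring.inverse_eq_inv']
      funext i
      fin_cases i <;> simp [Matrix.mulVec, dotProduct, Fin.sum_univ_two] <;> field_simp <;>
        simp
    rw [hi]
    unfold LatticeMem
    simp only [inv_one, Units.val_one, Matrix.one_mulVec]
    constructor
    · rintro ⟨⟨o, ho⟩, ⟨o', ho'⟩⟩ i
      fin_cases i
      · show finIncl K (c⁻¹ * x 0) ∈ _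
        rw [ho, inv_mul_cancel_left₀ hc0]; exact Reduction.finIncl_mem_of_isIntegral o
      · show finIncl K (c'⁻¹ * x 1) ∈ _
        rw [ho', inv_mul_cancel_left₀ hc0']; exact Reduction.finIncl_mem_of_isIntegral o'
    · intro h
      obtain ⟨o, ho⟩ := Reduction.exists_integer_of_finIncl_mem (h 0)
      obtain ⟨o', ho'⟩ := Reduction.exists_integer_of_finIncl_mem (h 1)
      exact ⟨⟨o, by rw [ho]; simp [hc0]⟩, ⟨o', by rw [ho']; simp [hc0']⟩⟩
  refine ⟨β⁻¹ * δ, _, hk, ?_⟩
  rw [map_mul, map_inv]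
  group

variable {U : Level K} (C : NormScale Fr U)

/-- The scale is one on `GL₂(Ô)`. -/
def IsUnitScale : Prop := ∀ k : GLFin K, IntGL k → C.c k = 1

variable {C}

omit [IsPrincipalIdealRing (𝓞 K)] in
/-- A scalar unit of `Ô` is in `GL₂(Ô)`. -/
theorem intGL_scalarFin {v : (FinAdele K)ˣ} (h1 : (v : FinAdele K) ∈ integralAdele K)
    (h2 : ((v⁻¹ : (FinAdele K)ˣ) : FinAdele K) ∈ integralAdele K) : IntGL (scalarFin K v) := by
  have key : ∀ w : (FinAdele K)ˣ, (w : FinAdele K) ∈ integralAdele K →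
      ∀ i j, (scalarFin K w).val i j ∈ integralAdele K := fun w hw i j => by
    show Matrix.diagonal (fun _ => (w : FinAdele K)) i j ∈ _
    rw [Matrix.diagonal_apply]
    split
    exacts [hw, zero_mem _]
  exact ⟨key v h1, fun i j => (map_inv (scalarFin K) v) ▸ key v⁻¹ h2 i j⟩

omit [IsPrincipalIdealRing (𝓞 K)] in
theorem det_mem_integral {g : GLFin K} (hg : ∀ i j, g.val i j ∈ integralAdele K) :
    g.val.det ∈ integralAdele K := by
  rw [Matrix.det_fin_two]
  exact sub_mem (mul_mem (hg _ _) (hg _ _)) (mul_mem (hg _ _) (hg _ _))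

/-- Every idele is a global element times an integral unit. -/
theorem exists_idele_decomp (a : (FinAdele K)ˣ) :
    ∃ (α : Kˣ) (v : (FinAdele K)ˣ), (v : FinAdele K) ∈ integralAdele K ∧
      ((v⁻¹ : (FinAdele K)ˣ) : FinAdele K) ∈ integralAdele K ∧
      a = Units.map (finIncl K).toMonoidHom α * v := by
  set g : GLFin K := @dia (FinAdele K) _ a with hg
  obtain ⟨γ, k, hk, hγk⟩ := exists_glIncl_mul_intGL g
  let d : GLFin K →* (FinAdele K)ˣ := Units.map (Matrix.detMonoidHom)
  have hval : ∀ g : GLFin K, ((d g : (FinAdele K)ˣ) : FinAdele K) = g.val.det := fun _ => rfl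
  let α : Kˣ := Units.map (Matrix.detMonoidHom) γ
  refine ⟨α, d k, by rw [hval]; exact det_mem_integral hk.1,
    by rw [← map_inv, hval]; exact det_mem_integral hk.2, Units.ext ?_⟩
  have h := congrArg (fun g : GLFin K => g.val.det) hγk
  have hl : g.val.det = (a : FinAdele K) := by simp [hg, dia, Matrix.det_fin_two]
  simp only [Units.val_mul, Matrix.det_mul, hl] at h
  rw [h, Units.val_mul, hval]
  congr 1
  exact ((finIncl K).map_det γ.val).symm

/-- An element of the level is a global scalar times an element of `GL₂(Ô)`. -/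
theorem level_decomp {u : GLFin K} (hu : u ∈ U.toSubgroup) :
    ∃ (α : Kˣ) (k : GLFin K), IntGL k ∧ u = glIncl K (scalarGlobal K α) * k := by
  obtain ⟨a, p, hp, rfl⟩ := U.le_maximal u hu
  obtain ⟨α, v, h1, h2, ha⟩ := exists_idele_decomp a
  refine ⟨α, scalarFin K v * p,
    (intGL_scalarFin h1 h2).mul (Reduction.intGL_of_isPrincipal hp), ?_⟩
  rw [glIncl_scalarGlobal, ← mul_assoc, ← map_mul, ← ha]

omit [IsPrincipalIdealRing (𝓞 K)] in
theorem level_root (hC : IsUnitScale C) {u : GLFin K} {α : Kˣ} {k : GLFin K} (hk : IntGL k)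
    (hu : u = glIncl K (scalarGlobal K α) * k) {r : ℚ} (hr : 0 < r) (hcu : C.c u = r ^ 2) :
    (r : K) = (α : K) * Fr.σ α := by
  have hd : (scalarGlobal K α : Matrix (Fin 2) (Fin 2) K).det = (α : K) ^ 2 := by
    simp [scalarGlobal_val]
  have h : ((r : ℝ)) ^ 2 = (‖Fr.e α‖ ^ 2) ^ 2 := by
    have := C.incl (scalarGlobal K α)
    rw [hd, map_pow, norm_pow] at this
    rw [hu, map_mul, hC k hk, mul_one] at hcu
    rw [hcu] at this
    push_cast at this
    linarith
  have hr' : (r : ℝ) = ‖Fr.e α‖ ^ 2 :=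
    (pow_left_inj₀ (by exact_mod_cast hr.le) (sq_nonneg _) two_ne_zero).1 h
  refine Fr.e.injective ?_
  rw [map_ratCast, map_mul, Fr.conj_e, Complex.mul_conj', ← Complex.ofReal_pow, ← hr',
    Complex.ofReal_ratCast]

/-- Matrices with denominator dividing `D`. -/
def InBox (D : ℕ) (Y : Matrix (Fin 2) (Fin 2) (FinAdele K)) : Prop :=
  ∀ i j, (D : FinAdele K) * Y i j ∈ integralAdele K

omit [IsPrincipalIdealRing (𝓞 K)] in
/-- Integral matrices preserve the denominators. -/
theorem InBox.hermAct {D : ℕ} {Y : Matrix (Fin 2) (Fin 2) (FinAdele K)} (hY : InBox D Y)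
    {k : GLFin K} (hk : IntGL k) (σ : K →+* K) :
    InBox D (hermAct (finMap σ).toRingHom k.val Y) := by
  intro i j
  rw [LiftHecke.hermAct, Matrix.mul_apply, Finset.mul_sum]
  refine sum_mem fun l _ => ?_
  rw [Matrix.mul_apply, Finset.sum_mul, Finset.mul_sum]
  refine sum_mem fun q _ => ?_
  rw [show (D : FinAdele K) * (k.val i q * Y q l * (k.val.map (finMap σ).toRingHom)ᵀ l j)
    = k.val i q * ((D : FinAdele K) * Y q l) * (k.val.map (finMap σ).toRingHom)ᵀ l j by ring]
  exact mul_mem (mul_mem (hk.1 i q) (hY q l)) (finMap_mem_integral σ (hk.1 j l))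

theorem hermAct_level_inv (hC : IsUnitScale C) {u : GLFin K} (hu : u ∈ U.toSubgroup) {r : ℚ}
    (hr : 0 < r) (hcu : C.c u = r ^ 2) :
    ∃ k : GLFin K, IntGL k ∧ ∀ Y, LiftHecke.hermAct (finMap Fr.σ).toRingHom (u⁻¹).val Y =
      LiftHecke.hermAct (finMap Fr.σ).toRingHom (k⁻¹).val (finIncl K ((r⁻¹ : ℚ) : K) • Y) := by
  obtain ⟨α, k, hk, rfl⟩ := level_decomp hu
  refine ⟨k, hk, fun Y => ?_⟩
  have h := level_root hC hk rfl hr hcu
  have hval : ((glIncl K (scalarGlobal K α) * k)⁻¹).val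
      = (k⁻¹).val * Matrix.scalar (Fin 2) (finIncl K ((α⁻¹ : Kˣ) : K)) := by
    rw [_root_.mul_inv_rev, Units.val_mul, glIncl_scalarGlobal, ← map_inv (scalarFin K),
      ← map_inv]
    rfl
  rw [hval, hermAct_mul]
  congr 1
  rw [show ((r⁻¹ : ℚ) : K) = ((α⁻¹ : Kˣ) : K) * Fr.σ ((α⁻¹ : Kˣ) : K) by
    rw [Rat.cast_inv, h, Units.val_inv_eq_inv_val, map_inv₀, _root_.mul_inv_rev, mul_comm],
    map_mul]
  refine Matrix.ext fun i j => ?_
  fin_cases i <;> fin_cases j <;>
    simp [LiftHecke.hermAct, Matrix.mul_apply, Fin.sum_univ_two, finMap_finIncl] <;> ring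

variable (C)

/-- The indicator of bounded denominator. -/
def boxWeight (hC : IsUnitScale C) (D : ℕ) : ThetaWeight Fr C where
  Φ Y := if InBox D Y then 1 else 0
  level u hu r hr hcu Y := by
    obtain ⟨k, hk, he⟩ := hermAct_level_inv hC hu hr hcu
    rw [he]
    congr 1
    refine propext ⟨fun h => ?_, fun h => h.hermAct hk.inv Fr.σ⟩
    have := h.hermAct hk Fr.σ
    rwa [← LiftHecke.hermAct_mul, ← Units.val_mul, mul_inv_cancel, Units.val_one,
      LiftHecke.hermAct, Matrix.map_one _ (map_zero _) (map_one _), Matrix.transpose_one,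
      Matrix.one_mul, Matrix.mul_one] at this

end Decomposition

end Fermat.Agent.LT.LiftTheta.Weil
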