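import Fermat.Agent.LT.LatticeTheta.Indefinite
import Mathlib.LinearAlgebra.Matrix.FixedDetMatrices
import Mathlib.NumberTheory.ModularForms.SlashActions
import Mathlib.NumberTheory.Modular

/-!
# Theta functions on a discriminant group

The span of the weight one theta functions on the discriminant group of an even lattice is stable
under `SL₂(ℤ)`, by maps commuting with the isometries of the discriminant group.
-/

set_option autoImplicit false

noncomputable section

open Complex Matrix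
open scoped Real Matrix MatrixGroups ModularForm

namespace Fermat.Agent.LT.LiftTheta.Weil

open LatticeTheta

variable {ι : Type*} [Fintype ι] [DecidableEq ι]

/-- The arithmetic of an even lattice. -/
structure LatticeShape (ι : Type*) [Fintype ι] [DecidableEq ι] where
  /-- the Gram matrix -/
  gram : Matrix ι ι ℤ
  gram_symm : gram.IsSymm
  gram_even : ∀ i, 2 ∣ gram i i
  /-- the level -/
  level : ℤ
  level_ne : level ≠ 0
  /-- `level • gram⁻¹` -/
  adj : Matrix ι ι ℤ
  adj_symm : adj.IsSymm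
  adj_even : ∀ i, 2 ∣ adj i i
  gram_mul_adj : gram * adj = level • (1 : Matrix ι ι ℤ)

/-- A majorant of the form of a shape. -/
structure Majorant (S : LatticeShape ι) where
  /-- coordinates in an orthonormal basis of the majorant -/
  A : Matrix ι ι ℝ
  det_ne : A.det ≠ 0
  /-- the signs -/
  sgn : ι → ℝ
  sgn_sq : ∀ i, sgn i = 1 ∨ sgn i = -1
  gram_eq : S.gram.map (Int.cast : ℤ → ℝ) = (2 : ℝ) • (Aᵀ * Matrix.diagonal sgn * A)

namespace LatticeShape

variable (S : LatticeShape ι)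

theorem adj_mul_gram : S.adj * S.gram = S.level • (1 : Matrix ι ι ℤ) := by
  have h := congrArg Matrix.transpose S.gram_mul_adj
  rwa [Matrix.transpose_mul, S.gram_symm.eq, S.adj_symm.eq, Matrix.transpose_smul,
    Matrix.transpose_one] at h

/-- The image of the lattice in its dual, both in coordinates. -/
def sub : AddSubgroup (ι → ℤ) := (Matrix.mulVecLin S.gram).toAddMonoidHom.range

theorem mem_sub_iff {ν : ι → ℤ} : ν ∈ S.sub ↔ ∃ n, S.gram *ᵥ n = ν := Iff.rfl

/-- The discriminant group. -/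
abbrev Cls : Type _ := (ι → ℤ) ⧸ S.sub

theorem level_smul_mem (ν : ι → ℤ) : S.level • ν ∈ S.sub :=
  ⟨S.adj *ᵥ ν, by
    show S.gram *ᵥ (S.adj *ᵥ ν) = _
    rw [Matrix.mulVec_mulVec, S.gram_mul_adj, Matrix.smul_mulVec, Matrix.one_mulVec]⟩

instance finite_cls : Finite S.Cls := by
  have hL : 0 < |S.level| := abs_pos.2 S.level_ne
  refine Finite.of_surjective
    (fun r : ι → Finset.Ico 0 |S.level| => (QuotientAddGroup.mk fun i => (r i : ℤ) : S.Cls))
    fun c => ?_
  obtain ⟨ν, rfl⟩ := QuotientAddGroup.mk_surjective c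
  refine ⟨fun i => ⟨ν i % |S.level|, Finset.mem_Ico.2
    ⟨Int.emod_nonneg _ hL.ne', Int.emod_lt_of_pos _ hL⟩⟩, ?_⟩
  refine QuotientAddGroup.eq.2 ?_
  obtain ⟨s, hs⟩ : ∃ s : ℤ, |S.level| = S.level * s := (dvd_abs _ _).2 dvd_rfl
  have h : -(fun i => ν i % |S.level|) + ν = S.level • fun i => s * (ν i / |S.level|) := by
    funext i
    simp only [Pi.add_apply, Pi.neg_apply, Pi.smul_apply, smul_eq_mul, Int.emod_def]
    linear_combination (ν i / |S.level|) * hs
  exact h ▸ S.level_smul_mem _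

instance fintype_cls : Fintype S.Cls := Fintype.ofFinite _

/-- The discriminant bilinear form. -/
def pair (ν μ : ι → ℤ) : ℝ := ((ν ⬝ᵥ (S.adj *ᵥ μ) : ℤ) : ℝ) / (S.level : ℝ)

/-- The discriminant pairing is symmetric. -/
theorem pair_comm (ν μ : ι → ℤ) : S.pair ν μ = S.pair μ ν := by
  rw [pair, pair, Matrix.dotProduct_mulVec, ← Matrix.mulVec_transpose, S.adj_symm.eq,
    dotProduct_comm]

theorem pair_add_right (ν μ μ' : ι → ℤ) : S.pair ν (μ + μ') = S.pair ν μ + S.pair ν μ' := by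
  simp only [pair, Matrix.mulVec_add, dotProduct_add, Int.cast_add, add_div]

theorem pair_add_left (ν ν' μ : ι → ℤ) : S.pair (ν + ν') μ = S.pair ν μ + S.pair ν' μ := by
  rw [S.pair_comm, pair_add_right, S.pair_comm μ, S.pair_comm μ]

theorem pair_gram (ν n : ι → ℤ) : S.pair ν (S.gram *ᵥ n) = ((ν ⬝ᵥ n : ℤ) : ℝ) := by
  have hL : (S.level : ℝ) ≠ 0 := by exact_mod_cast S.level_ne
  rw [pair, Matrix.mulVec_mulVec, adj_mul_gram, Matrix.smul_mulVec, Matrix.one_mulVec,
    dotProduct_smul, smul_eq_mul]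
  push_cast
  field_simp

theorem mem_sub_of_pair {ν : ι → ℤ} (h : ∀ μ, ∃ k : ℤ, S.pair ν μ = k) : ν ∈ S.sub := by
  have hL : (S.level : ℝ) ≠ 0 := by exact_mod_cast S.level_ne
  have h' : ∀ i, ∃ k : ℤ, (S.adj *ᵥ ν) i = S.level * k := fun i => by
    obtain ⟨k, hk⟩ := h (Pi.single i 1)
    refine ⟨k, ?_⟩
    rw [S.pair_comm, pair, div_eq_iff hL] at hk
    have : ((S.adj *ᵥ ν) i : ℝ) = (S.level : ℝ) * k := by
      rw [mul_comm, ← hk, single_dotProduct, one_mul]
    exact_mod_cast this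
  choose k hk using h'
  refine ⟨k, ?_⟩
  show S.gram *ᵥ k = ν
  have e : S.level • (S.gram *ᵥ k) = S.level • ν := by
    rw [← Matrix.mulVec_smul, show S.level • k = S.adj *ᵥ ν from funext fun i => (hk i).symm,
      Matrix.mulVec_mulVec, S.gram_mul_adj, Matrix.smul_mulVec, Matrix.one_mulVec]
  exact (smul_right_inj S.level_ne).1 e

theorem half_pair_self_gram (n : ι → ℤ) : ∃ k : ℤ, S.pair (S.gram *ᵥ n) (S.gram *ᵥ n) / 2 = k := by
  obtain ⟨k, hk⟩ := two_dvd_quadForm S.gram_symm S.gram_even n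
  refine ⟨k, ?_⟩
  rw [pair_gram, div_eq_iff two_ne_zero]
  have : (S.gram *ᵥ n) ⬝ᵥ n = k * 2 := by
    rw [dotProduct_comm, mul_comm, ← hk]
    simp [dotProduct, Matrix.mulVec, Finset.mul_sum, mul_assoc]
  rw [this]
  push_cast
  ring

theorem expi_pair_add_sub {μ : ι → ℤ} (hμ : μ ∈ S.sub) (ν κ : ι → ℤ) :
    expi (S.pair ν (κ + μ)) = expi (S.pair ν κ) := by
  obtain ⟨n, rfl⟩ := S.mem_sub_iff.1 hμ
  rw [pair_add_right, pair_gram, expi_add_int]

/-- The pairing as a character of the second variable. -/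
def pairC (ν : ι → ℤ) : S.Cls → ℂ :=
  Quotient.lift (fun μ => expi (S.pair ν μ)) fun μ μ' h => by
    have h' := QuotientAddGroup.leftRel_apply.1 h
    show expi _ = expi _
    rw [← S.expi_pair_add_sub h' ν μ, add_neg_cancel_left]

theorem pairC_mk (ν μ : ι → ℤ) : S.pairC ν (μ : S.Cls) = expi (S.pair ν μ) := rfl

theorem pairC_add_sub {μ : ι → ℤ} (hμ : μ ∈ S.sub) (ν : ι → ℤ) : S.pairC (ν + μ) = S.pairC ν := by
  funext c
  obtain ⟨κ, rfl⟩ := QuotientAddGroup.mk_surjective c
  rw [pairC_mk, pairC_mk, S.pair_comm, expi_pair_add_sub S hμ, S.pair_comm]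

/-- The phase `e (q)`. -/
def phase (n : ℤ) : S.Cls → ℂ :=
  Quotient.lift (fun μ => expi (n * (S.pair μ μ / 2))) fun μ μ' h => by
    have h' := QuotientAddGroup.leftRel_apply.1 h
    obtain ⟨m, hm⟩ := S.mem_sub_iff.1 h'
    obtain ⟨k, hk⟩ := S.half_pair_self_gram m
    show expi _ = expi _
    have e : μ' = μ + S.gram *ᵥ m := by rw [hm, add_neg_cancel_left]
    have e' : (n : ℝ) * (S.pair μ' μ' / 2) =
        n * (S.pair μ μ / 2) + ((n * ((μ ⬝ᵥ m) + k) : ℤ) : ℝ) := by
      have h1 := pair_gram S μ m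
      have h2 : S.pair (S.gram *ᵥ m) μ = S.pair μ (S.gram *ᵥ m) := S.pair_comm _ _
      rw [e, pair_add_right, pair_add_left, pair_add_left, h2]
      push_cast
      rw [← h1, ← hk]
      ring
    rw [e', expi_add_int]

theorem phase_mk (n : ℤ) (μ : ι → ℤ) : S.phase n (μ : S.Cls) = expi (n * (S.pair μ μ / 2)) := rfl

theorem norm_phase (n : ℤ) (c : S.Cls) : ‖S.phase n c‖ = 1 := by
  obtain ⟨μ, rfl⟩ := QuotientAddGroup.mk_surjective c
  exact norm_expi _

theorem norm_pairC (ν : ι → ℤ) (c : S.Cls) : ‖S.pairC ν c‖ = 1 := by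
  obtain ⟨μ, rfl⟩ := QuotientAddGroup.mk_surjective c
  exact norm_expi _

/-- The finite Fourier transform. -/
def dft (F : S.Cls → ℂ) : S.Cls → ℂ :=
  Quotient.lift (fun ν => ∑ c, F c * S.pairC ν c) fun ν ν' h => by
    have h' := QuotientAddGroup.leftRel_apply.1 h
    show ∑ c, F c * S.pairC ν c = ∑ c, F c * S.pairC ν' c
    rw [← add_neg_cancel_left ν ν', pairC_add_sub S h']

theorem dft_mk (F : S.Cls → ℂ) (ν : ι → ℤ) : S.dft F (ν : S.Cls) = ∑ c, F c * S.pairC ν c := rfl

/-- An isometry of the dual lattice. -/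
structure Isom where
  /-- the map -/
  e : (ι → ℤ) ≃+ (ι → ℤ)
  pair_eq : ∀ ν μ, S.pair (e ν) (e μ) = S.pair ν μ

variable {S}

namespace Isom

variable (T : S.Isom)

/-- An isometry preserves the lattice inside its dual. -/
theorem map_sub {ν : ι → ℤ} (h : ν ∈ S.sub) : T.e ν ∈ S.sub := S.mem_sub_of_pair fun μ => by
  obtain ⟨n, rfl⟩ := S.mem_sub_iff.1 h
  refine ⟨(T.e.symm μ) ⬝ᵥ n, ?_⟩
  rw [← S.pair_gram, S.pair_comm (T.e.symm μ), ← T.pair_eq (S.gram *ᵥ n) (T.e.symm μ),
    AddEquiv.apply_symm_apply]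

/-- The induced map of the discriminant group. -/
def cls : S.Cls → S.Cls :=
  Quotient.map T.e fun ν ν' h => by
    refine QuotientAddGroup.leftRel_apply.2 ?_
    rw [← map_neg, ← map_add]
    exact T.map_sub (QuotientAddGroup.leftRel_apply.1 h)

theorem cls_mk (ν : ι → ℤ) : T.cls (ν : S.Cls) = (T.e ν : S.Cls) := rfl

theorem bijective_cls : Function.Bijective T.cls := by
  refine (Finite.surjective_iff_bijective).1 fun c => ?_
  obtain ⟨ν, rfl⟩ := QuotientAddGroup.mk_surjective c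
  exact ⟨(T.e.symm ν : S.Cls), by rw [cls_mk, AddEquiv.apply_symm_apply]⟩

theorem dft_comp (F : S.Cls → ℂ) : S.dft (F ∘ T.cls) = S.dft F ∘ T.cls := by
  funext c
  obtain ⟨ν, rfl⟩ := QuotientAddGroup.mk_surjective c
  rw [Function.comp_apply, cls_mk, dft_mk, dft_mk]
  refine Fintype.sum_bijective T.cls T.bijective_cls _ _ fun c => ?_
  obtain ⟨μ, rfl⟩ := QuotientAddGroup.mk_surjective c
  rw [Function.comp_apply, cls_mk, pairC_mk, pairC_mk, T.pair_eq]

theorem phase_comp (n : ℤ) : S.phase n ∘ T.cls = S.phase n := by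
  funext c
  obtain ⟨μ, rfl⟩ := QuotientAddGroup.mk_surjective c
  rw [Function.comp_apply, cls_mk, phase_mk, phase_mk, T.pair_eq]

end Isom

end LatticeShape

namespace Majorant

variable {S : LatticeShape ι} (D : Majorant S)

/-- The lattice with its majorant. -/
def lattice : EvenLattice ι :=
  { D with
    gram := S.gram
    gram_symm := S.gram_symm
    gram_even := S.gram_even
    level := S.level
    level_ne := S.level_ne
    adj := S.adj
    adj_symm := S.adj_symm
    adj_even := S.adj_even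
    gram_mul_adj := S.gram_mul_adj }

theorem bil_dualPt (ν μ : ι → ℤ) :
    D.lattice.bil (D.lattice.dualPt ν) (D.lattice.dualPt μ) = S.pair ν μ := by
  rw [EvenLattice.bil, EvenLattice.gramR_mulVec_dualPt, EvenLattice.dualPt, smul_dotProduct,
    smul_eq_mul, S.pair_comm, LatticeShape.pair, dotProduct_comm μ,
    show D.lattice.level = S.level from rfl, show D.lattice.adj = S.adj from rfl,
    inv_mul_eq_div]
  congr 1
  simp [dotProduct, intVec]

theorem quad_dualPt (ν : ι → ℤ) : D.lattice.quad (D.lattice.dualPt ν) = S.pair ν ν / 2 := by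
  rw [EvenLattice.quad, bil_dualPt]

theorem dualPt_add_gram (ν n : ι → ℤ) :
    D.lattice.dualPt (ν + S.gram *ᵥ n) = intVec n + D.lattice.dualPt ν := by
  have hL : (S.level : ℝ) ≠ 0 := by exact_mod_cast S.level_ne
  rw [EvenLattice.dualPt, EvenLattice.dualPt, show D.lattice.adj = S.adj from rfl,
    show D.lattice.level = S.level from rfl, Matrix.mulVec_add, Matrix.mulVec_mulVec,
    S.adj_mul_gram, Matrix.smul_mulVec, Matrix.one_mulVec]
  funext i
  simp [intVec]
  field_simp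
  ring

/-- The theta function of a function on the discriminant group. -/
def theta (F : S.Cls → ℂ) (τ : UpperHalfPlane) : ℂ :=
  (√τ.im : ℝ) * ∑' ν : ι → ℤ, F (ν : S.Cls) * D.lattice.phi τ (D.lattice.dualPt ν)

theorem summable_phi_dualPt (τ : UpperHalfPlane) :
    Summable fun ν : ι → ℤ => D.lattice.phi τ (D.lattice.dualPt ν) := by
  set B : Matrix ι ι ℝ := (S.level : ℝ)⁻¹ • S.adj.map (Int.cast : ℤ → ℝ) with hB
  have hL : (S.level : ℝ) ≠ 0 := by exact_mod_cast S.level_ne
  have hGB : S.gram.map (Int.cast : ℤ → ℝ) * B = 1 := by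
    have h := congrArg (fun M : Matrix ι ι ℤ => M.map (Int.castRingHom ℝ)) S.gram_mul_adj
    rw [Matrix.map_mul] at h
    rw [hB, Matrix.mul_smul, show (Int.cast : ℤ → ℝ) = ⇑(Int.castRingHom ℝ) from rfl, h]
    ext i j
    rw [Matrix.smul_apply, Matrix.map_apply, Matrix.smul_apply]
    by_cases e : i = j
    · subst e; simp [hL]
    · simp [e]
  have hdet : (D.A * B).det ≠ 0 := by
    rw [Matrix.det_mul]
    refine mul_ne_zero D.det_ne fun h => ?_
    have := congrArg Matrix.det hGB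
    rw [Matrix.det_mul, h, mul_zero, Matrix.det_one] at this
    exact zero_ne_one this
  refine ((locallyDominated_gauss hdet (D.lattice.coef_re_pos τ)).summable 0).congr fun ν => ?_
  rw [zero_add, EvenLattice.phi, gaussTerm, gaussTerm, show D.lattice.A = D.A from rfl,
    ← Matrix.mulVec_mulVec, hB, Matrix.smul_mulVec, EvenLattice.dualPt]
  congr 5
  funext i
  simp [intVec, Matrix.mulVec, dotProduct, show D.lattice.adj = S.adj from rfl,
    show D.lattice.level = S.level from rfl]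

theorem summable_mul_phi (f : (ι → ℤ) → ℂ) {B : ℝ} (hf : ∀ ν, ‖f ν‖ ≤ B) (τ : UpperHalfPlane) :
    Summable fun ν : ι → ℤ => f ν * D.lattice.phi τ (D.lattice.dualPt ν) :=
  Summable.of_norm_bounded ((D.summable_phi_dualPt τ).norm.mul_left B) fun ν => by
    rw [norm_mul]; exact mul_le_mul_of_nonneg_right (hf ν) (norm_nonneg _)

/-- A function on a finite type is bounded. -/
theorem exists_bound {α : Type*} [Fintype α] (F : α → ℂ) : ∃ B, ∀ a, ‖F a‖ ≤ B :=
  ⟨∑ a, ‖F a‖, fun a => Finset.single_le_sum (f := fun a => ‖F a‖)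
    (fun b _ => norm_nonneg (F b)) (Finset.mem_univ a)⟩

theorem gram_mulVec_injective : Function.Injective fun n : ι → ℤ => S.gram *ᵥ n := fun n m h => by
  have h' := congrArg (fun v => S.adj *ᵥ v) h
  simp only [Matrix.mulVec_mulVec, S.adj_mul_gram, Matrix.smul_mulVec, Matrix.one_mulVec] at h'
  exact (smul_right_inj S.level_ne).1 h'

/-- A representative and a lattice vector. -/
def splitEquiv (S : LatticeShape ι) : S.Cls × (ι → ℤ) ≃ (ι → ℤ) :=
  Equiv.ofBijective (fun p => p.1.out + S.gram *ᵥ p.2) (by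
    constructor
    · rintro ⟨c, n⟩ ⟨d, m⟩ h
      simp only at h
      have hc : c = d := by
        rw [← QuotientAddGroup.out_eq' c, ← QuotientAddGroup.out_eq' d]
        refine QuotientAddGroup.eq.2 ⟨n - m, ?_⟩
        show S.gram *ᵥ (n - m) = _
        rw [Matrix.mulVec_sub]
        linear_combination (norm := module) h
      subst hc
      rw [gram_mulVec_injective (add_left_cancel h)]
    · intro ν
      obtain ⟨n, hn⟩ := S.mem_sub_iff.1
        (QuotientAddGroup.eq.1 (QuotientAddGroup.out_eq' (ν : S.Cls)))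
      refine ⟨((ν : S.Cls), n), ?_⟩
      show (ν : S.Cls).out + S.gram *ᵥ n = ν
      rw [hn, add_neg_cancel_left])

theorem tsum_eq_sum_series (F : S.Cls → ℂ) (τ : UpperHalfPlane) :
    ∑' ν : ι → ℤ, F (ν : S.Cls) * D.lattice.phi τ (D.lattice.dualPt ν) =
      ∑ c, F c * D.lattice.series τ (D.lattice.dualPt c.out) 0 := by
  have hb : ∀ x : ι → ℝ, D.lattice.bil x 0 = 0 := fun x => by simp [EvenLattice.bil]
  obtain ⟨B, hB⟩ := exists_bound F
  have hs := (splitEquiv S).summable_iff.2 (D.summable_mul_phi (fun ν => F (ν : S.Cls))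
    (fun ν => hB _) τ)
  rw [← (splitEquiv S).tsum_eq]
  refine hs.tsum_prod.trans ?_
  rw [tsum_fintype]
  refine Finset.sum_congr rfl fun c _ => ?_
  rw [EvenLattice.series, ← tsum_mul_left]
  refine tsum_congr fun n => ?_
  show F (((c.out + S.gram *ᵥ n : ι → ℤ)) : S.Cls) * _ = _
  rw [hb, expi_zero, mul_one]
  congr 1
  · rw [QuotientAddGroup.mk_add_of_mem _ (S.mem_sub_iff.2 ⟨n, rfl⟩), QuotientAddGroup.out_eq']
  · exact congrArg _ (D.dualPt_add_gram _ _)

/-- The inversion formula. -/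
theorem tsum_inversion (F : S.Cls → ℂ) (τ σ : UpperHalfPlane) (hσ : (σ : ℂ) = -(τ : ℂ)⁻¹) :
    ∑' ν : ι → ℤ, F (ν : S.Cls) * D.lattice.phi τ (D.lattice.dualPt ν) =
      D.lattice.invConst τ *
        ∑' ν : ι → ℤ, S.dft F (ν : S.Cls) * D.lattice.phi σ (D.lattice.dualPt ν) := by
  rw [tsum_eq_sum_series]
  simp only [EvenLattice.series_eq_dualSeries _ τ σ hσ, neg_zero, EvenLattice.dualSeries,
    add_zero, smul_zero]
  have hterm : ∀ c : S.Cls, ∀ ν, D.lattice.phi σ (D.lattice.dualPt ν) *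
      expi (D.lattice.bil (D.lattice.dualPt ν) (D.lattice.dualPt c.out)) =
        S.pairC ν c * D.lattice.phi σ (D.lattice.dualPt ν) := fun c ν => by
    conv_rhs => rw [← QuotientAddGroup.out_eq' c]
    rw [bil_dualPt, LatticeShape.pairC_mk, mul_comm]
  simp only [hterm, mul_left_comm (F _), ← Finset.mul_sum]
  congr 1
  simp only [← tsum_mul_left]
  rw [← Summable.tsum_finsetSum fun c _ =>
    (D.summable_mul_phi (fun ν => S.pairC ν c) (fun ν => (S.norm_pairC ν c).le) σ).mul_left (F c)]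
  refine tsum_congr fun ν => ?_
  rw [LatticeShape.dft_mk, Finset.sum_mul]
  exact Finset.sum_congr rfl fun c _ => (mul_assoc _ _ _).symm

end Majorant

variable (S : LatticeShape ι)

/-- The constant of inversion has the shape of a form of signature with two more plus signs. -/
def HasWeightOne (κ : ℂ) (D : Majorant S) : Prop :=
  ∀ τ : UpperHalfPlane, D.lattice.invConst τ
    = κ * (1 / (-2 * I * τ)) * (‖(1 / (-2 * I * τ) : ℂ)‖ : ℝ)

/-- The slash by `δ` is given by a map of functions on the discriminant group commuting with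
isometries. -/
def IsGoodSlash (κ : ℂ) (δ : SL(2, ℤ)) : Prop :=
  ∃ R : (S.Cls → ℂ) → S.Cls → ℂ,
    (∀ (D : Majorant S), HasWeightOne S κ D → ∀ F, D.theta F ∣[(1 : ℤ)] δ = D.theta (R F)) ∧
    (∀ (T : S.Isom) F, R (F ∘ T.cls) = R F ∘ T.cls) ∧
    ∃ C : ℝ, ∀ (F : S.Cls → ℂ) (B : ℝ), (∀ c, ‖F c‖ ≤ B) → ∀ c, ‖R F c‖ ≤ C * B

variable {S}

theorem isGoodSlash_one (κ : ℂ) : IsGoodSlash S κ 1 :=
  ⟨id, fun D _ F => SlashAction.slash_one _ _, fun _ _ => rfl, 1, fun _ _ h c => by
    rw [one_mul]; exact h c⟩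

/-- Good slashes are closed under products. -/
theorem IsGoodSlash.mul {κ : ℂ} {γ δ : SL(2, ℤ)} (hγ : IsGoodSlash S κ γ)
    (hδ : IsGoodSlash S κ δ) : IsGoodSlash S κ (γ * δ) := by
  obtain ⟨R, hR, hR', C, hC⟩ := hγ
  obtain ⟨R₂, hR₂, hR₂', C₂, hC₂⟩ := hδ
  exact ⟨R₂ ∘ R, fun D hD F => by rw [SlashAction.slash_mul, hR D hD, hR₂ D hD]; rfl,
    fun T F => by simp only [Function.comp_apply, hR', hR₂'], C₂ * C, fun F B h c => by
      rw [mul_assoc]; exact hC₂ _ _ (hC F B h) c⟩

/-- Theta functions are odd in the function on the discriminant group. -/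
theorem Majorant.theta_neg (D : Majorant S) (F : S.Cls → ℂ) : D.theta (-F) = -D.theta F := by
  funext τ
  simp [Majorant.theta, neg_mul, tsum_neg]

theorem isGoodSlash_neg_one (κ : ℂ) : IsGoodSlash S κ (-1) := by
  refine ⟨fun F => -F, fun D _ F => ?_, fun _ _ => rfl, 1, fun F B h c => by
    show ‖-(F c)‖ ≤ _
    rw [norm_neg, one_mul]; exact h c⟩
  funext τ
  rw [ModularForm.SL_slash_apply, ModularGroup.SL_neg_smul, one_smul, D.theta_neg,
    ModularGroup.denom_apply]
  simp

theorem isGoodSlash_T_zpow (κ : ℂ) (n : ℤ) : IsGoodSlash S κ (ModularGroup.T ^ n) := by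
  refine ⟨fun F c => S.phase n c * F c, fun D _ F => ?_, fun T F => ?_, 1, fun F B h c => by
    rw [norm_mul, S.norm_phase, one_mul, one_mul]; exact h c⟩
  · funext τ
    rw [ModularForm.SL_slash_apply, UpperHalfPlane.modular_T_zpow_smul, Majorant.theta,
      Majorant.theta, UpperHalfPlane.vadd_im, ModularGroup.denom_apply]
    simp only [ModularGroup.coe_T_zpow, Matrix.of_apply, Matrix.cons_val', Matrix.cons_val_zero,
      Matrix.cons_val_one, Matrix.cons_val_fin_one, Int.cast_zero, Int.cast_one, zero_mul, zero_add,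
      _root_.one_zpow, mul_one]
    congr 1
    refine tsum_congr fun ν => ?_
    rw [EvenLattice.phi_vadd, D.quad_dualPt, LatticeShape.phase_mk]
    ring
  · funext c
    show S.phase n c * F (T.cls c) = S.phase n (T.cls c) * F (T.cls c)
    rw [← congrFun (T.phase_comp n) c]
    rfl

theorem isGoodSlash_S (κ : ℂ) : IsGoodSlash S κ ModularGroup.S := by
  refine ⟨fun F => (κ / (4 * I)) • S.dft F, fun D hD F => ?_, fun T F => ?_,
    ‖κ / (4 * I)‖ * Fintype.card S.Cls, fun F B h c => ?_⟩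
  · funext τ
    set υ : UpperHalfPlane := ModularGroup.S • τ with hυ
    have hυc : (υ : ℂ) = (-(τ : ℂ))⁻¹ := by
      rw [hυ, UpperHalfPlane.modular_S_smul]
    have hσ : (τ : ℂ) = -(υ : ℂ)⁻¹ := by rw [hυc, inv_inv, neg_neg]
    have hτ := τ.ne_zero
    rw [ModularForm.SL_slash_apply, ← hυ, Majorant.theta, D.tsum_inversion F υ τ hσ, hD υ, hυc,
      ModularGroup.denom_S, Majorant.theta,
      show υ.im = τ.im / ‖(τ : ℂ)‖ ^ 2 by
        rw [hυ, ModularGroup.im_smul_eq_div_normSq, ModularGroup.denom_S,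
          Complex.normSq_eq_norm_sq],
      Real.sqrt_div τ.im_pos.le, Real.sqrt_sq (norm_nonneg _)]
    have hz : ‖(1 / (-2 * I * (-(τ : ℂ))⁻¹) : ℂ)‖ = ‖(τ : ℂ)‖ / 2 := by
      simp [norm_inv]
      ring
    have hn : ((‖(τ : ℂ)‖ : ℝ) : ℂ) ≠ 0 := by simpa using hτ
    rw [hz]
    simp only [Pi.smul_apply, smul_eq_mul, mul_assoc, tsum_mul_left]
    rw [_root_.zpow_neg_one]
    push_cast
    field_simp
    ring
  · show (κ / (4 * I)) • S.dft (F ∘ T.cls) = _
    rw [T.dft_comp]
    rfl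
  · obtain ⟨ν, rfl⟩ := QuotientAddGroup.mk_surjective c
    show ‖κ / (4 * I) * S.dft F (ν : S.Cls)‖ ≤ _
    rw [norm_mul, mul_assoc, S.dft_mk]
    refine mul_le_mul_of_nonneg_left ((norm_sum_le _ _).trans ?_) (norm_nonneg _)
    refine (Finset.sum_le_card_nsmul _ _ B fun c _ => ?_).trans (le_of_eq ?_)
    · rw [norm_mul, S.norm_pairC, mul_one]; exact h c
    · rw [Finset.card_univ, nsmul_eq_mul]

/-- **Every element of `SL₂(ℤ)` acts.** -/
theorem isGoodSlash (κ : ℂ) (δ : SL(2, ℤ)) : IsGoodSlash S κ δ := by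
  have hmem : δ ∈ Subgroup.closure {ModularGroup.S, ModularGroup.T} := by
    rw [SpecialLinearGroup.SL2Z_generators]; exact Subgroup.mem_top _
  suffices IsGoodSlash S κ δ ∧ IsGoodSlash S κ δ⁻¹ from this.1
  induction hmem using Subgroup.closure_induction with
  | mem x hx =>
    rcases hx with rfl | rfl
    · refine ⟨isGoodSlash_S κ, ?_⟩
      have e : ModularGroup.S⁻¹ = (-1 : SL(2, ℤ)) * ModularGroup.S := by
        refine inv_eq_of_mul_eq_one_right ?_
        ext i j
        fin_cases i <;> fin_cases j <;>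
          simp [ModularGroup.coe_S]
      rw [e]
      exact (isGoodSlash_neg_one κ).mul (isGoodSlash_S κ)
    · exact ⟨zpow_one ModularGroup.T ▸ isGoodSlash_T_zpow κ 1,
        _root_.zpow_neg_one ModularGroup.T ▸ isGoodSlash_T_zpow κ (-1)⟩
  | one => exact ⟨isGoodSlash_one κ, inv_one (G := SL(2, ℤ)) ▸ isGoodSlash_one κ⟩
  | mul x y _ _ hx hy => exact ⟨hx.1.mul hy.1, _root_.mul_inv_rev x y ▸ hy.2.mul hx.2⟩
  | inv x _ hx => exact ⟨hx.2, (inv_inv x).symm ▸ hx.1⟩

end Fermat.Agent.LT.LiftTheta.Weil
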