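import Fermat.Agent.LT.LiftTheta.Weil.Coef
import Fermat.Agent.LT.Lift.CoefData

/-!
# Expansion of slashed theta functions

The slash by an element of `SL₂(ℤ)` of the theta functions of a level weight expands in the theta
terms of a box weight, with invariant bounded coefficients.
-/

set_option autoImplicit false

noncomputable section

open Matrix NumberField
open scoped Real MatrixGroups ModularForm Classical
open NumberField (InfinitePlace)

namespace Fermat.Agent.LT.LiftTheta.Weil

open LiftHecke
open Lift (AdelicJ AdelicG)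

variable {K : Type*} [Field K] [NumberField K] [IsPrincipalIdealRing (𝓞 K)]
  [Unique (InfinitePlace K)] {Fr : HermFrame K} {U : Level K} {C : NormScale Fr U} {M : ℕ}
  [NeZero M] {W : ThetaWeight Fr C}

/-- **The slash of the theta functions in the theta terms of the box weight.** -/
theorem hasExpansion_slash (B : EisBasis Fr) (hC : IsUnitScale C) (hW : IsLevelWeight W M)
    (δ : SL(2, ℤ)) :
    Lift.HasExpansion (boxWeight C hC (3 * M))
      fun y => Lift.thetaFun W y ∣[(1 : ℤ)] δ := by
  obtain ⟨R, hθ, hR, c, hb⟩ := isGoodSlash (S := scaledShape M) (scaledConst M) δ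
  obtain ⟨L, -, hL⟩ := norm_slashCoef_le B hW R hb
  refine ⟨slashCoef B hW R, fun g j => ?_, ⟨L, hL⟩, fun y τ => ?_⟩
  · obtain ⟨γ, rfl⟩ := AdelicG.exists_mk g
    rw [Lift.adelicIndex_mk_smul]
    exact slashCoef_transport B hW R hC hR γ j
  · refine (thetaFun_slash_eq B hW R hC hθ y τ).trans ?_
    congr 1
    refine tsum_congr fun X => ?_
    rw [thetaTerm_eq]
    rcases eq_or_ne (slashCoef B hW R (AdelicJ.of y.2 X : AdelicJ C)) 0 with h0 | h0
    · rw [h0, mul_zero, zero_mul]
    · have hbox := inBox_of_slashCoef_ne B hW R hC h0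
      have h1 : (AdelicJ.of y.2 X : AdelicJ C).coset = y.2 := rfl
      have h2 : (AdelicJ.of y.2 X : AdelicJ C).mat = X := rfl
      rw [h1, h2] at hbox
      have hΦ : ∀ Y, InBox (3 * M) Y → (boxWeight C hC (3 * M)).Φ Y = 1 := fun Y hY => by
        unfold boxWeight
        exact if_pos hY
      rw [hΦ _ hbox, mul_one, mul_comm]

end Fermat.Agent.LT.LiftTheta.Weil

end
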