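import Fermat.Agent.LT.LiftTheta.Weil.Discriminant
import Fermat.Agent.LT.LatticeTheta.Theta
import Fermat.Agent.LT.Lift.Radial

/-!
# The scaled lattice of Hermitian matrices

The lattice `M Λ` of Hermitian matrices over `ℤ[ζ₃]` and its discriminant group in coordinates.
-/

set_option autoImplicit false

noncomputable section

open Complex Matrix
open scoped Real Matrix ComplexConjugate

namespace Fermat.Agent.LT.LiftTheta.Weil

open LatticeTheta

/-- The shape of `M Λ`. -/
def scaledShape (M : ℕ) [NeZero M] : LatticeShape (Fin 4) where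
  gram := (M : ℤ) ^ 2 • hermGram
  gram_symm := by
    show ((M : ℤ) ^ 2 • hermGram)ᵀ = (M : ℤ) ^ 2 • hermGram
    rw [Matrix.transpose_smul, show hermGramᵀ = hermGram by decide]
  gram_even i := by
    rw [Matrix.smul_apply, smul_eq_mul]
    exact dvd_mul_of_dvd_right ((by decide : ∀ i, 2 ∣ hermGram i i) i) _
  level := 3 * (M : ℤ) ^ 2
  level_ne := mul_ne_zero three_ne_zero (pow_ne_zero _ (Int.natCast_ne_zero.2 (NeZero.ne M)))
  adj := hermAdj
  adj_symm := by
    show hermAdjᵀ = hermAdj
    decide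
  adj_even := by decide
  gram_mul_adj := by
    rw [Matrix.smul_mul,
      show hermGram * hermAdj = (3 : ℤ) • (1 : Matrix (Fin 4) (Fin 4) ℤ) by decide,
      smul_smul, mul_comm]

variable (M : ℕ) [NeZero M]

/-- Its majorant at a point of hyperbolic space. -/
def scaledMajorant (P : H3) : Majorant (scaledShape M) where
  A := (M : ℝ) • majBasis P
  det_ne := by
    rw [Matrix.det_smul]
    exact mul_ne_zero (pow_ne_zero _ (Nat.cast_ne_zero.2 (NeZero.ne M))) (majBasis_det_ne_zero P)
  sgn := hermSgn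
  sgn_sq i := by fin_cases i <;> simp [hermSgn]
  gram_eq := by
    ext i j
    have h := congrFun (congrFun (hermGram_eq P) i) j
    simp only [Matrix.map_apply, Matrix.smul_apply, smul_eq_mul] at h
    simp only [scaledShape, Matrix.map_apply, Matrix.smul_apply, smul_eq_mul, Int.cast_mul,
      Int.cast_pow, Int.cast_natCast, h, Matrix.transpose_smul, Matrix.smul_mul, Matrix.mul_smul]
    ring

/-- The constant of the inversion. -/
def scaledConst : ℂ := ((((M : ℝ) ^ 4)⁻¹ * (4 / √3) : ℝ) : ℂ)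

theorem hasWeightOne_scaledMajorant (P : H3) :
    HasWeightOne (scaledShape M) (scaledConst M) (scaledMajorant M P) := fun τ => by
  have h := hermLattice_invConst P τ
  rw [EvenLattice.invConst, gaussConst] at h ⊢
  have hc : (scaledMajorant M P).lattice.coef τ = (hermLattice P).coef τ := rfl
  have hA : (scaledMajorant M P).lattice.A = (M : ℝ) • (hermLattice P).A := rfl
  rw [hc, hA, Matrix.det_smul, Fintype.card_fin, abs_mul, mul_inv,
    abs_of_nonneg (pow_nonneg (Nat.cast_nonneg M) 4), Complex.ofReal_mul, mul_assoc, h, scaledConst]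
  push_cast
  ring

/-- The point of the dual of `M Λ` with index `ν`. -/
def qcoord (ν : Fin 4 → ℤ) : Fin 4 → ℚ := fun i => ((hermAdj *ᵥ ν) i : ℚ) / (3 * (M : ℚ))

/-- The same as a real vector. -/
def qreal (ν : Fin 4 → ℤ) : Fin 4 → ℝ := fun i => (qcoord M ν i : ℝ)

theorem qreal_eq (P : H3) (ν : Fin 4 → ℤ) :
    qreal M ν = (M : ℝ) • (scaledMajorant M P).lattice.dualPt ν := by
  have hM : (M : ℝ) ≠ 0 := Nat.cast_ne_zero.2 (NeZero.ne M)
  funext i
  simp [qreal, qcoord, EvenLattice.dualPt, scaledMajorant, Majorant.lattice, scaledShape, intVec]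
  field_simp

omit [NeZero M] in
theorem qreal_add (ν μ : Fin 4 → ℤ) : qreal M (ν + μ) = qreal M ν + qreal M μ := by
  funext i
  simp [qreal, qcoord, Matrix.mulVec_add, add_div]

theorem qcoord_injective : Function.Injective (qcoord M) := fun ν μ h => by
  have hM : (3 * (M : ℚ)) ≠ 0 := mul_ne_zero three_ne_zero (Nat.cast_ne_zero.2 (NeZero.ne M))
  have h' : hermAdj *ᵥ ν = hermAdj *ᵥ μ := funext fun i => by
    have := congrFun h i
    simp only [qcoord, div_left_inj' hM] at this
    exact_mod_cast this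
  have h'' := congrArg (fun v => hermGram *ᵥ v) h'
  simp only [Matrix.mulVec_mulVec,
    show hermGram * hermAdj = (3 : ℤ) • (1 : Matrix (Fin 4) (Fin 4) ℤ) by decide,
    Matrix.smul_mulVec, Matrix.one_mulVec] at h''
  exact (smul_right_inj (three_ne_zero (α := ℤ))).1 h''

theorem qcoord_gram (n : Fin 4 → ℤ) : qcoord M ((scaledShape M).gram *ᵥ n) =
    fun i => (M : ℚ) * n i := by
  have hM : (M : ℚ) ≠ 0 := Nat.cast_ne_zero.2 (NeZero.ne M)
  funext i
  simp only [qcoord, scaledShape, Matrix.smul_mulVec, Matrix.mulVec_smul, Matrix.mulVec_mulVec,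
    show hermAdj * hermGram = (3 : ℤ) • (1 : Matrix (Fin 4) (Fin 4) ℤ) by decide,
    Matrix.one_mulVec, Pi.smul_apply, smul_eq_mul]
  push_cast
  field_simp

theorem scaledPhi_eq (P : H3) (τ : UpperHalfPlane) (ν : Fin 4 → ℤ) :
    (scaledMajorant M P).lattice.phi τ ((scaledMajorant M P).lattice.dualPt ν) =
      (hermLattice P).phi τ (qreal M ν) := by
  have hc : (scaledMajorant M P).lattice.coef τ = (hermLattice P).coef τ := rfl
  have hA : (scaledMajorant M P).lattice.A = (M : ℝ) • (hermLattice P).A := rfl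
  rw [EvenLattice.phi, EvenLattice.phi, gaussTerm, gaussTerm, hc, hA, Matrix.smul_mulVec,
    qreal_eq M P, Matrix.mulVec_smul]

theorem majForm_eq (P : H3) {X : Matrix (Fin 2) (Fin 2) ℂ} (hX : X.IsHermitian) :
    majForm P X = Lift.nForm X + 2 * Lift.mTrace X P ^ 2 := by
  have hd := h3_det_re P
  have h00 := h3_diag_im P 0
  have h11 := h3_diag_im P 1
  have x00 : (X 0 0).im = 0 := Complex.conj_eq_iff_im.1 (hX.apply 0 0)
  have x11 : (X 1 1).im = 0 := Complex.conj_eq_iff_im.1 (hX.apply 1 1)
  have x10 : X 1 0 = conj (X 0 1) := (hX.apply 1 0).symm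
  simp only [majForm, Lift.nForm, Lift.mTrace, h3_inv, h3_apply_one_zero, Matrix.trace_fin_two,
    Matrix.det_fin_two, Matrix.mul_apply, Fin.sum_univ_two, x10]
  simp [h00, h11, x00, x11, Complex.mul_re, Complex.mul_im]
  linear_combination (-((X 0 0).re * (X 1 1).re - ((X 0 1).re ^ 2 + (X 0 1).im ^ 2))) * hd

theorem hermMat_isHermitian (x : Fin 4 → ℝ) : (hermMat x).IsHermitian := by
  refine Matrix.IsHermitian.ext fun i j => ?_
  fin_cases i <;> fin_cases j <;> apply Complex.ext <;> simp [hermMat]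

theorem hermLattice_phi_eq (P : H3) (τ : UpperHalfPlane) (x : Fin 4 → ℝ) :
    (hermLattice P).phi τ x = Complex.exp (2 * π * (I * Lift.nForm (hermMat x) * τ.re
      - (Lift.nForm (hermMat x) + 2 * Lift.mTrace (hermMat x) P ^ 2 : ℝ) * τ.im)) := by
  rw [hermLattice_phi, ← majForm_eq P (hermMat_isHermitian x), expi, Complex.ofReal_exp,
    ← Complex.exp_add, show Lift.nForm (hermMat x) = nForm (hermMat x) from rfl]
  congr 1
  push_cast
  ring

theorem hermMat_injective : Function.Injective hermMat := fun x y h => by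
  have h3 : √3 ≠ 0 := by simp
  have e := fun i j => congrFun (congrFun h i) j
  have e0 := congrArg Complex.re (e 0 0)
  have e1 := congrArg Complex.re (e 1 1)
  have e2 := congrArg Complex.re (e 0 1)
  have e3 := congrArg Complex.im (e 0 1)
  simp [hermMat, h3] at e0 e1 e2 e3
  funext i
  fin_cases i
  · exact e0
  · exact e1
  · show x 2 = y 2
    linarith
  · exact e3

theorem exists_hermMat {X : Matrix (Fin 2) (Fin 2) ℂ} (hX : X.IsHermitian) :
    ∃ x, hermMat x = X := by
  have h3 : √3 ≠ 0 := by simp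
  have x00 : (X 0 0).im = 0 := Complex.conj_eq_iff_im.1 (hX.apply 0 0)
  have x11 : (X 1 1).im = 0 := Complex.conj_eq_iff_im.1 (hX.apply 1 1)
  have x10 : X 1 0 = conj (X 0 1) := (hX.apply 1 0).symm
  refine ⟨![(X 0 0).re, (X 1 1).re, (X 0 1).re + (X 0 1).im / √3, 2 * (X 0 1).im / √3], ?_⟩
  ext i j
  fin_cases i <;> fin_cases j <;> apply Complex.ext <;>
    simp [hermMat, x00, x11, x10] <;> field_simp <;> ring

theorem pair_eq_nForm (ν μ : Fin 4 → ℤ) :
    (scaledShape M).pair ν μ = Lift.nForm (hermMat (qreal M (ν + μ))) -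
      Lift.nForm (hermMat (qreal M ν)) - Lift.nForm (hermMat (qreal M μ)) := by
  have hM : (M : ℝ) ≠ 0 := Nat.cast_ne_zero.2 (NeZero.ne M)
  show _ = nForm _ - nForm _ - nForm _
  rw [nForm_hermMat, nForm_hermMat, nForm_hermMat]
  simp [LatticeShape.pair, qreal, qcoord, scaledShape, hermAdj, Matrix.mulVec, dotProduct,
    Fin.sum_univ_four]
  field_simp
  ring

/-- Additive maps of Hermitian matrices preserving `Λ` and the form permute the dual of `M Λ`. -/
theorem exists_qreal_of_isometry (f g : Matrix (Fin 2) (Fin 2) ℂ →+ Matrix (Fin 2) (Fin 2) ℂ)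
    (hgf : ∀ X, f (g X) = X)
    (hherm : ∀ X, X.IsHermitian → (f X).IsHermitian)
    (hn : ∀ X, Lift.nForm (f X) = Lift.nForm X)
    (hg : ∀ n : Fin 4 → ℤ, ∃ n' : Fin 4 → ℤ, g (hermMat (intVec n)) = hermMat (intVec n'))
    (ν : Fin 4 → ℤ) : ∃ ν', f (hermMat (qreal M ν)) = hermMat (qreal M ν') := by
  have hM : (M : ℝ) ≠ 0 := Nat.cast_ne_zero.2 (NeZero.ne M)
  obtain ⟨x, hx⟩ := exists_hermMat (hherm _ (hermMat_isHermitian (qreal M ν)))
  have hadd : ∀ u v : Fin 4 → ℝ, hermMat (u + v) = hermMat u + hermMat v := fun u v => by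
    ext i j
    fin_cases i <;> fin_cases j <;> apply Complex.ext <;> simp [hermMat] <;> ring
  -- the pairing of `x` with an integral vector
  have key : ∀ n : Fin 4 → ℤ, ∃ k : ℤ, (M : ℝ) * (hermLattice H3.origin).bil x (intVec n) = k := by
    intro n
    obtain ⟨n', hn'⟩ := hg n
    refine ⟨(ν ⬝ᵥ n'), ?_⟩
    have e1 : (hermLattice H3.origin).bil x (intVec n) =
        (hermLattice H3.origin).bil (qreal M ν) (intVec n') := by
      have q : ∀ u, (hermLattice H3.origin).quad u = Lift.nForm (hermMat u) :=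
        fun u => hermLattice_quad _ u
      have b : ∀ u v : Fin 4 → ℝ, (hermLattice H3.origin).bil u v
          = Lift.nForm (hermMat u + hermMat v) - Lift.nForm (hermMat u) - Lift.nForm (hermMat v) :=
        fun u v => by
          rw [← hadd, ← q, ← q, ← q, EvenLattice.quad_add]; ring
      have hfn : f (hermMat (intVec n')) = hermMat (intVec n) := by rw [← hn', hgf]
      rw [b, b, hx, ← hfn, ← map_add, hn, hn, hn]
    rw [e1]
    simp [EvenLattice.bil, EvenLattice.gramR, hermLattice, hermGram, qreal, qcoord, hermAdj,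
      Matrix.mulVec, dotProduct, Fin.sum_univ_four, intVec]
    field_simp
    ring
  choose k hk using fun i => key (Pi.single i 1)
  refine ⟨k, ?_⟩
  rw [← hx]
  congr 1
  funext i
  simp only [qreal, qcoord, Rat.cast_div, Rat.cast_mul, Rat.cast_natCast, Rat.cast_intCast,
    Rat.cast_ofNat]
  have h0 := hk 0
  have h1 := hk 1
  have h2 := hk 2
  have h3 := hk 3
  simp [EvenLattice.bil, EvenLattice.gramR, hermLattice, hermGram, Matrix.mulVec, dotProduct,
    Fin.sum_univ_four, intVec] at h0 h1 h2 h3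
  fin_cases i <;>
    simp [hermAdj, Matrix.mulVec, dotProduct, Fin.sum_univ_four, ← h0, ← h1, ← h2, ← h3] <;>
    field_simp <;> ring

end Fermat.Agent.LT.LiftTheta.Weil
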