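import Fermat.Agent.LT.LiftTheta.Weil.Coords
import Fermat.Agent.LT.LiftTheta.Weil.Scaled
import Fermat.Agent.LT.Lift.FormPackage

/-!
# Theta functions of a discriminant group

The theta function at a point of `Y` is a theta function of the discriminant group of `M Λ`; its
character under `Γ₀(3 M²)` and the integrality of the norms.
-/

set_option autoImplicit false

noncomputable section

open Matrix NumberField CongruenceSubgroup
open scoped Real MatrixGroups ModularForm Classical
open NumberField (InfinitePlace)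

namespace Fermat.Agent.LT.LiftTheta.Weil

open LatticeTheta LiftHecke
open Reduction (IntGL)
open Lift (thetaFun thetaY thetaTerm pullMat)

variable {K : Type*} [Field K] [NumberField K] {Fr : HermFrame K} (B : EisBasis Fr)
  {U : Level K} {C : NormScale Fr U}

/-- A weight of level `M`: bounded, integral support, periodic, even for the units of `ℤ / M`. -/
structure IsLevelWeight (W : ThetaWeight Fr C) (M : ℕ) : Prop where
  bounded : ∃ b : ℝ, ∀ Y, ‖W.Φ Y‖ ≤ b
  support : ∀ Y, W.Φ Y ≠ 0 → ∀ i j, Y i j ∈ integralAdele K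
  periodic : ∀ Y (k : GLFin K) (X : Fr.Herm), IntGL k →
    (∀ i j, ThetaWeight.arg (Fr := Fr) k X i j ∈ integralAdele K) →
    W.Φ (Y + (M : FinAdele K) • ThetaWeight.arg (Fr := Fr) k X) = W.Φ Y
  scale : ∀ (a : ℤ) (k : GLFin K) (X : Fr.Herm), IsCoprime a (M : ℤ) → IntGL k →
    (∀ i j, ThetaWeight.arg (Fr := Fr) k X i j ∈ integralAdele K) →
    W.Φ ((a : FinAdele K) • ThetaWeight.arg (Fr := Fr) k X) = W.Φ (ThetaWeight.arg (Fr := Fr) k X)

namespace EisBasis

theorem coordHerm_injective : Function.Injective B.coordHerm := fun q q' h => by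
  have e := congrArg (Fr.normVec 1) h
  rw [B.normVec_coordHerm, B.normVec_coordHerm] at e
  funext i
  exact_mod_cast congrFun (hermMat_injective e) i

theorem coordHerm_add (q q' : Fin 4 → ℚ) :
    (B.coordHerm (q + q')).1 = (B.coordHerm q).1 + (B.coordHerm q').1 := by
  ext i j
  fin_cases i <;> fin_cases j <;> simp [coordHerm] <;> ring

theorem coordHerm_smul (r : ℚ) (q : Fin 4 → ℚ) :
    (B.coordHerm (r • q)).1 = (r : K) • (B.coordHerm q).1 := by
  ext i j
  fin_cases i <;> fin_cases j <;> simp [coordHerm] <;> ring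

theorem inBox_map_coordHerm (D : ℕ) (q : Fin 4 → ℚ) :
    InBox D ((B.coordHerm q).1.map (finIncl K)) ↔ ∀ i, ∃ z : ℤ, (z : ℚ) = D * q i := by
  have h : ∀ i j, (D : FinAdele K) * ((B.coordHerm q).1.map (finIncl K)) i j
      = finIncl K ((B.coordHerm ((D : ℚ) • q)).1 i j) := fun i j => by
    rw [B.coordHerm_smul, Matrix.smul_apply, Matrix.map_apply, smul_eq_mul, map_mul]
    simp
  simp only [InBox, h]
  exact B.coordHerm_integral_iff _

theorem isInt_of_inBox {k : GLFin K} (hk : IntGL k) {D : ℕ} {q : Fin 4 → ℚ}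
    (h : InBox D (ThetaWeight.arg (Fr := Fr) k (B.coordHerm q))) (i : Fin 4) :
    ∃ z : ℤ, (z : ℚ) = D * q i := by
  refine (B.inBox_map_coordHerm D q).1 ?_ i
  have h' := h.hermAct hk Fr.σ
  rwa [ThetaWeight.arg, ← LiftHecke.hermAct_mul, ← Units.val_mul, mul_inv_cancel, Units.val_one,
    LiftHecke.hermAct, Matrix.map_one _ (map_zero _) (map_one _), Matrix.transpose_one,
    Matrix.one_mul, Matrix.mul_one] at h'

theorem arg_coordHerm_add (k : GLFin K) (q q' : Fin 4 → ℚ) :
    ThetaWeight.arg (Fr := Fr) k (B.coordHerm (q + q')) =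
      ThetaWeight.arg (Fr := Fr) k (B.coordHerm q) +
        ThetaWeight.arg (Fr := Fr) k (B.coordHerm q') := by
  simp only [ThetaWeight.arg, LiftHecke.hermAct, B.coordHerm_add,
    Matrix.map_add (finIncl K) (map_add (finIncl K)), Matrix.mul_add, Matrix.add_mul]

theorem arg_coordHerm_smul (k : GLFin K) (r : ℚ) (q : Fin 4 → ℚ) :
    ThetaWeight.arg (Fr := Fr) k (B.coordHerm (r • q)) =
      finIncl K (r : K) • ThetaWeight.arg (Fr := Fr) k (B.coordHerm q) := by
  have h : (B.coordHerm (r • q)).1.map (finIncl K) =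
      finIncl K (r : K) • (B.coordHerm q).1.map (finIncl K) := by
    rw [B.coordHerm_smul]
    exact Matrix.ext fun i j => map_mul (finIncl K) _ _
  simp only [ThetaWeight.arg, LiftHecke.hermAct, h]
  refine Matrix.ext fun i j => ?_
  simp only [Matrix.mul_apply, Matrix.smul_apply, smul_eq_mul, Fin.sum_univ_two]
  ring

theorem arg_integral {k : GLFin K} (hk : IntGL k) (n : Fin 4 → ℤ) (i j : Fin 2) :
    ThetaWeight.arg (Fr := Fr) k (B.coordHerm fun l => (n l : ℚ)) i j ∈ integralAdele K := by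
  have h := ((B.inBox_map_coordHerm 1 fun l => (n l : ℚ)).2 fun l => ⟨n l, by simp⟩).hermAct
    hk.inv Fr.σ i j
  rwa [Nat.cast_one, one_mul] at h

end EisBasis

variable (M : ℕ) [NeZero M]

theorem qcoord_lattice (n : Fin 4 → ℤ) :
    qcoord M ((M : ℤ) • (hermGram *ᵥ n)) = fun i => (n i : ℚ) := by
  have hM : (M : ℚ) ≠ 0 := Nat.cast_ne_zero.2 (NeZero.ne M)
  funext i
  simp only [qcoord, Matrix.mulVec_smul, Matrix.mulVec_mulVec,
    show hermAdj * hermGram = (3 : ℤ) • (1 : Matrix (Fin 4) (Fin 4) ℤ) by decide,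
    Matrix.smul_mulVec, Matrix.one_mulVec, Pi.smul_apply, smul_eq_mul]
  push_cast
  field_simp

variable {M}

/-- The coefficients of a weight on the discriminant group, at `k`. -/
def classFun {W : ThetaWeight Fr C} (hW : IsLevelWeight W M) (k : GLFin K) (hk : IntGL k) :
    (scaledShape M).Cls → ℂ :=
  Quotient.lift (fun ν => W.Φ (ThetaWeight.arg (Fr := Fr) k (B.coordHerm (qcoord M ν))))
    fun ν ν' h => by
      obtain ⟨n, hn⟩ := (scaledShape M).mem_sub_iff.1 (QuotientAddGroup.leftRel_apply.1 h)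
      have hq : qcoord M ν' = qcoord M ν + (M : ℚ) • fun i => (n i : ℚ) := by
        rw [show ν' = ν + (scaledShape M).gram *ᵥ n by rw [hn, add_neg_cancel_left]]
        funext i
        have := congrFun (qcoord_gram M n) i
        simp only [qcoord, Matrix.mulVec_add, Pi.add_apply, Int.cast_add, add_div,
          Pi.smul_apply, smul_eq_mul] at this ⊢
        rw [this]
      show W.Φ _ = W.Φ _
      rw [hq, B.arg_coordHerm_add, B.arg_coordHerm_smul, Rat.cast_natCast, map_natCast]
      exact (hW.periodic _ _ _ hk fun i j => B.arg_integral hk n i j).symm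

theorem classFun_mk {W : ThetaWeight Fr C} (hW : IsLevelWeight W M) (k : GLFin K) (hk : IntGL k)
    (ν : Fin 4 → ℤ) : classFun B hW k hk (ν : (scaledShape M).Cls) =
      W.Φ (ThetaWeight.arg (Fr := Fr) k (B.coordHerm (qcoord M ν))) := rfl

/-- `b` is the coset of `γ k` with `k` integral. -/
def IsDecomp (b : GLFin K ⧸ U.toSubgroup) (γ : GL (Fin 2) K) (k : GLFin K) : Prop :=
  IntGL k ∧ (QuotientGroup.mk (glIncl K γ * k) : GLFin K ⧸ U.toSubgroup) = b

/-- Every coset has a global times integral representative when the class number is one. -/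
theorem exists_decomp [IsPrincipalIdealRing (𝓞 K)] (b : GLFin K ⧸ U.toSubgroup) :
    ∃ γ k, IsDecomp b γ k := by
  obtain ⟨γ, k, hk, h⟩ := exists_glIncl_mul_intGL b.out
  exact ⟨γ, k, hk, by rw [← h, QuotientGroup.out_eq']⟩

/-- The reindexing of the theta sum at a coset. -/
theorem exists_transfer (hC : IsUnitScale C) {b : GLFin K ⧸ U.toSubgroup} {γ : GL (Fin 2) K}
    {k : GLFin K} (hd : IsDecomp b γ k) :
    ∃ E : Fr.Herm ≃ Fr.Herm,
      (∀ X, pullMat (Matrix.GeneralLinearGroup.map Fr.e γ) (Fr.normVec (C.c b.out) (E X)) =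
        Fr.normVec 1 X) ∧
      ∀ (W : ThetaWeight Fr C) (X : Fr.Herm),
        W.Φ (ThetaWeight.arg b.out (E X)) = W.Φ (ThetaWeight.arg k X) := by
  set u : GLFin K := b.out⁻¹ * (glIncl K γ * k)
  have hu : u ∈ U.toSubgroup := by
    refine QuotientGroup.eq.1 ?_
    rw [QuotientGroup.out_eq', hd.2]
  obtain ⟨r, hr, hcu⟩ := C.sq_rat u hu
  have hmul : b.out * u = glIncl K γ * k := mul_inv_cancel_left _ _
  refine ⟨(Fr.hermEquiv γ).trans (Fr.ratEquiv r⁻¹ (inv_ne_zero hr.ne')), fun X => ?_, fun W X => ?_⟩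
  · rw [Equiv.trans_apply, ← HermFrame.normVec_mul_sq Fr _ _ hr, ← hcu, ← map_mul, hmul,
      ThetaWeight.normVec_hermEquiv, hC k hd.1]
  · rw [Equiv.trans_apply, ThetaWeight.arg_ratEquiv, ← W.level u hu r hr hcu,
      ← ThetaWeight.arg_mul, hmul, Lift.arg_hermEquiv]

/-- The exponential of a summand. -/
def thetaKern (C : NormScale Fr U) (τ : ℂ) (P : H3) (g : GLFin K) (X : Fr.Herm) : ℂ :=
  Complex.exp (2 * π * (Complex.I * Lift.nForm (Fr.normVec (C.c g) X) * τ.re
    - (Lift.nForm (Fr.normVec (C.c g) X) +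
      2 * Lift.mTrace (Fr.normVec (C.c g) X) P ^ 2 : ℝ) * τ.im))

theorem thetaTerm_eq (W : ThetaWeight Fr C) (τ : ℂ) (P : H3) (g : GLFin K) (X : Fr.Herm) :
    thetaTerm W τ P g X = thetaKern C τ P g X * W.Φ (ThetaWeight.arg g X) := rfl

/-- A sum over `Herm` supported on the dual of `M Λ` is a theta function of the discriminant
group. -/
theorem tsum_transfer (hC : IsUnitScale C) {b : GLFin K ⧸ U.toSubgroup} {γ : GL (Fin 2) K}
    {k : GLFin K} (hd : IsDecomp b γ k) (coef : Fr.Herm → ℂ) (G : (scaledShape M).Cls → ℂ)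
    (hc : ∀ X, coef X ≠ 0 → ∃ ν, pullMat (Matrix.GeneralLinearGroup.map Fr.e γ)
      (Fr.normVec (C.c b.out) X) = hermMat (qreal M ν))
    (hG : ∀ ν X, pullMat (Matrix.GeneralLinearGroup.map Fr.e γ) (Fr.normVec (C.c b.out) X) =
      hermMat (qreal M ν) → coef X = G (ν : (scaledShape M).Cls))
    (B : EisBasis Fr) (P : H3) (τ : UpperHalfPlane) :
    Lift.sqrtIm (τ : ℂ) * ∑' X, thetaKern C τ P b.out X * coef X =
      (scaledMajorant M ((Matrix.GeneralLinearGroup.map Fr.e γ)⁻¹ • P)).theta G τ := by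
  set g := Matrix.GeneralLinearGroup.map Fr.e γ
  obtain ⟨E, hv, -⟩ := exists_transfer hC hd
  set j : (Fin 4 → ℤ) → Fr.Herm := fun ν => E (B.coordHerm (qcoord M ν))
  have hj : ∀ ν, pullMat g (Fr.normVec (C.c b.out) (j ν)) = hermMat (qreal M ν) := fun ν => by
    rw [hv, B.normVec_coordHerm]; rfl
  have hinj : Function.Injective j :=
    E.injective.comp (B.coordHerm_injective.comp (qcoord_injective M))
  rw [Majorant.theta, Lift.sqrtIm, UpperHalfPlane.coe_im]
  congr 1
  rw [← hinj.tsum_eq (f := fun X => thetaKern C (τ : ℂ) P b.out X * coef X)]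
  · refine tsum_congr fun ν => ?_
    rw [hG ν _ (hj ν), mul_comm, scaledPhi_eq, hermLattice_phi_eq, thetaKern, ← hj ν,
      Lift.nForm_pullMat]
    congr 3
    rw [← Lift.mTrace_smul, smul_inv_smul]
    simp
  · intro X hX
    obtain ⟨ν, hν⟩ := hc X (right_ne_zero_of_mul hX)
    exact ⟨ν, normVec_injective_pull (hν.trans (hj ν).symm).symm⟩
where
  normVec_injective_pull {b : GLFin K ⧸ U.toSubgroup} {g : GL (Fin 2) ℂ} {X Y : Fr.Herm}
      (h : pullMat g (Fr.normVec (C.c b.out) X) = pullMat g (Fr.normVec (C.c b.out) Y)) : X = Y :=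
    Lift.normVec_injective Fr (C.pos _) (Lift.pullMat_injective g h)

variable [Unique (InfinitePlace K)]

/-- The theta function at a point. -/
theorem thetaFun_eq (hC : IsUnitScale C) {W : ThetaWeight Fr C} (hW : IsLevelWeight W M)
    {γ : GL (Fin 2) K} {k : GLFin K} (y : Y U) (hd : IsDecomp y.2 γ k) :
    thetaFun W y = (scaledMajorant M
      ((Matrix.GeneralLinearGroup.map Fr.e γ)⁻¹ • y.1 default)).theta (classFun B hW k hd.1) := by
  funext τ
  rw [thetaFun, thetaY]
  simp only [thetaTerm_eq]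
  obtain ⟨E, hv, hΦ⟩ := exists_transfer hC hd
  refine tsum_transfer hC hd (fun X => W.Φ (ThetaWeight.arg y.2.out X)) _ (fun X hX => ?_)
    (fun ν X hν => ?_) B _ _
  · obtain ⟨X₀, rfl⟩ := E.surjective X
    obtain ⟨q, rfl⟩ := B.exists_coordHerm X₀
    simp only [hΦ] at hX
    have hint := fun i => B.isInt_of_inBox hd.1 (D := 1) (fun a c => by
      rw [Nat.cast_one, one_mul]; exact hW.support _ hX a c) i
    choose n hn using hint
    refine ⟨(M : ℤ) • (hermGram *ᵥ n), ?_⟩
    rw [hv, B.normVec_coordHerm]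
    congr 1
    funext i
    show ((q i : ℚ) : ℝ) = ((qcoord M _ i : ℚ) : ℝ)
    rw [qcoord_lattice]
    simp [hn]
  · obtain ⟨X₀, rfl⟩ := E.surjective X
    rw [hv] at hν
    have e : X₀ = B.coordHerm (qcoord M ν) :=
      Lift.normVec_injective Fr one_pos (hν.trans (B.normVec_coordHerm _).symm)
    show W.Φ _ = _
    rw [hΦ, classFun_mk, e]

end Fermat.Agent.LT.LiftTheta.Weil
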